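import Mathlib

/-!
# S14(i) Stickelberger, part 1: base-`q` digit sums

Pure natural-number arithmetic used in the proof of Stickelberger's theorem:

* `digitSum q n`: the sum of the base-`q` digits of `n`;
* `digitSum_mul`, `digitSum_succ`: behaviour under `n ↦ q * n` and `n ↦ n + 1` (no carry);
* `digitSum_add_digitSum_compl`: `s(a) + s(q^f - 1 - a) = f (q - 1)`;
* `legendre_digitSum`: `(q - 1) * ∑_{i < k} n / q^(i+1) + s(n) = n` for `n < q^k`;
* `mul_digitSum_frac`: for `p ∣ q^f - 1`, `0 < r < p`, `m = r (q^f - 1) / p`: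
  `p * s(m) = (q - 1) * ∑_{i < f} (r q^i mod p)`;
* `carryCount` and `two_mul_digitSum_frac_sub`: the "number of carries" formula
  `2 s(m_r) = s(m_{2r mod p}) + (q - 1) #{i < f : p < 2 (r q^i mod p)}`.
-/

set_option autoImplicit false

namespace Fermat.Agent.CFT.Stickelberger

open Finset

/-- The sum of the base-`q` digits of `n`. -/
def digitSum (q n : ℕ) : ℕ := (Nat.digits q n).sum

@[simp] theorem digitSum_zero (q : ℕ) : digitSum q 0 = 0 := by simp [digitSum]

theorem digitSum_rec {q : ℕ} (hq : 1 < q) (n : ℕ) :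
    digitSum q n = n % q + digitSum q (n / q) := by
  rcases Nat.eq_zero_or_pos n with rfl | hn
  · simp
  · rw [digitSum, Nat.digits_def' hq hn, List.sum_cons, digitSum]

theorem digitSum_mul {q : ℕ} (hq : 1 < q) (a : ℕ) : digitSum q (q * a) = digitSum q a := by
  rw [digitSum_rec hq (q * a), Nat.mul_mod_right, zero_add,
    Nat.mul_div_cancel_left a (by omega : 0 < q)]

theorem digitSum_of_lt {q : ℕ} (hq : 1 < q) {a : ℕ} (ha : a < q) : digitSum q a = a := by
  rw [digitSum_rec hq a, Nat.mod_eq_of_lt ha, Nat.div_eq_of_lt ha, digitSum_zero, add_zero]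

theorem digitSum_one {q : ℕ} (hq : 1 < q) : digitSum q 1 = 1 := digitSum_of_lt hq hq

theorem digitSum_succ {q : ℕ} (hq : 1 < q) (a : ℕ) (h : a % q + 1 < q) :
    digitSum q (a + 1) = digitSum q a + 1 := by
  rw [digitSum_rec hq (a + 1), digitSum_rec hq a]
  have h1 : (a + 1) % q = a % q + 1 := by
    rw [Nat.add_mod, Nat.mod_eq_of_lt hq, Nat.mod_eq_of_lt h]
  have h2 : (a + 1) / q = a / q := by
    have := Nat.div_add_mod a q
    have h3 : a + 1 = q * (a / q) + (a % q + 1) := by omega
    rw [h3, Nat.mul_add_div (by omega : 0 < q), Nat.div_eq_of_lt h, add_zero]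
  rw [h1, h2]
  ring

theorem digitSum_pos {q : ℕ} (hq : 1 < q) {a : ℕ} (ha : 0 < a) : 0 < digitSum q a := by
  induction a using Nat.strong_induction_on with
  | _ a ih =>
    rw [digitSum_rec hq a]
    by_cases h : a % q = 0
    · have hq0 : 0 < q := by omega
      have h1 : 0 < a / q := by
        have := Nat.div_add_mod a q
        rcases Nat.eq_zero_or_pos (a / q) with h0 | h0
        · rw [h0, h] at this
          omega
        · exact h0
      have h2 : a / q < a := Nat.div_lt_self ha hq
      have := ih (a / q) h2 h1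
      omega
    · omega

/-- Digit complement: `s(a) + s(q^f - 1 - a) = f (q - 1)`. -/
theorem digitSum_add_digitSum_compl {q : ℕ} (hq : 1 < q) (f : ℕ) :
    ∀ a : ℕ, a < q ^ f → digitSum q a + digitSum q (q ^ f - 1 - a) = f * (q - 1) := by
  induction f with
  | zero =>
    intro a ha
    have : a = 0 := by simpa using ha
    subst this
    simp
  | succ f ih =>
    intro a ha
    have hq0 : 0 < q := by omega
    have hqf : 0 < q ^ f := Nat.pos_of_ne_zero (pow_ne_zero _ (by omega))
    have hdm := Nat.div_add_mod a q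
    have hmod : a % q < q := Nat.mod_lt _ hq0
    have hdiv : a / q < q ^ f := by
      rw [Nat.div_lt_iff_lt_mul hq0, ← pow_succ]
      exact ha
    -- the complement
    have hcomp : q ^ (f + 1) - 1 - a = q * (q ^ f - 1 - a / q) + (q - 1 - a % q) := by
      have h1 : q ^ (f + 1) = q * q ^ f := by rw [pow_succ, mul_comm]
      have h2 : q * (q ^ f - 1 - a / q) = q * q ^ f - q - q * (a / q) := by
        rw [Nat.mul_sub, Nat.mul_sub, mul_one]
      have h3 : q * (a / q) + q ≤ q * q ^ f := by
        calc q * (a / q) + q = q * (a / q + 1) := by ring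
          _ ≤ q * q ^ f := Nat.mul_le_mul_left _ hdiv
      rw [h1, h2]
      omega
    have hlast : q - 1 - a % q < q := by omega
    have hcmod : (q ^ (f + 1) - 1 - a) % q = q - 1 - a % q := by
      rw [hcomp, Nat.mul_add_mod, Nat.mod_eq_of_lt hlast]
    have hcdiv : (q ^ (f + 1) - 1 - a) / q = q ^ f - 1 - a / q := by
      rw [hcomp, Nat.mul_add_div hq0, Nat.div_eq_of_lt hlast, add_zero]
    rw [digitSum_rec hq a, digitSum_rec hq (q ^ (f + 1) - 1 - a), hcmod, hcdiv]
    have := ih (a / q) hdiv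
    have h4 : (f + 1) * (q - 1) = f * (q - 1) + (q - 1) := by ring
    rw [h4]
    omega

/-- Legendre's formula for the digit sum: `(q - 1) ∑_{i<k} ⌊n / q^(i+1)⌋ + s(n) = n`
for `n < q^k`. -/
theorem legendre_digitSum {q : ℕ} (hq : 1 < q) (k : ℕ) :
    ∀ n : ℕ, n < q ^ k → (q - 1) * ∑ i ∈ range k, n / q ^ (i + 1) + digitSum q n = n := by
  induction k with
  | zero =>
    intro n hn
    have : n = 0 := by simpa using hn
    subst this
    simp
  | succ k ih =>
    intro n hn
    have hq0 : 0 < q := by omega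
    have hdiv : n / q < q ^ k := by
      rw [Nat.div_lt_iff_lt_mul hq0, ← pow_succ]
      exact hn
    have h1 : ∑ i ∈ range (k + 1), n / q ^ (i + 1)
        = n / q + ∑ i ∈ range k, (n / q) / q ^ (i + 1) := by
      rw [sum_range_succ']
      simp only [zero_add, pow_one]
      rw [add_comm]
      congr 1
      refine sum_congr rfl fun i _ => ?_
      rw [Nat.div_div_eq_div_mul, ← pow_succ']
    rw [h1, digitSum_rec hq n, mul_add]
    have := ih (n / q) hdiv
    have hdm := Nat.div_add_mod n q
    have h2 : (q - 1) * (n / q) + n / q = q * (n / q) := by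
      have : q - 1 + 1 = q := by omega
      calc (q - 1) * (n / q) + n / q = (q - 1 + 1) * (n / q) := by ring
        _ = q * (n / q) := by rw [this]
    omega


theorem sub_one_mul_geom_sum_add_one {q : ℕ} (hq : 1 ≤ q) (f : ℕ) :
    (q - 1) * ∑ i ∈ range f, q ^ i + 1 = q ^ f := by
  induction f with
  | zero => simp
  | succ f ih =>
    rw [sum_range_succ, mul_add, pow_succ]
    have h1 : (q - 1) * q ^ f + q ^ f = q ^ f * q := by
      have : q - 1 + 1 = q := by omega
      calc (q - 1) * q ^ f + q ^ f = (q - 1 + 1) * q ^ f := by ring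
        _ = q ^ f * q := by rw [this, mul_comm]
    omega

section Frac

variable {q p f : ℕ}

/-- `⌊r (q^f - 1) / (p q^j)⌋ = ⌊r q^(f-j) / p⌋`. -/
theorem frac_div_pow (hq : 1 < q) (hp : 0 < p) (hpf : p ∣ q ^ f - 1) {r : ℕ} (hr : r < p)
    {j : ℕ} (hj : j ≤ f) :
    (r * ((q ^ f - 1) / p)) / q ^ j = (r * q ^ (f - j)) / p := by
  set M := (q ^ f - 1) / p with hM
  have hqf : 0 < q ^ f := Nat.pos_of_ne_zero (pow_ne_zero _ (by omega))
  have hqj : 0 < q ^ j := Nat.pos_of_ne_zero (pow_ne_zero _ (by omega))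
  have hpM : p * M + 1 = q ^ f := by
    rw [hM, Nat.mul_div_cancel' hpf]
    omega
  have hsplit : q ^ f = q ^ j * q ^ (f - j) := by
    rw [← pow_add, Nat.add_sub_cancel' hj]
  set N := r * q ^ (f - j) with hN
  have hdm := Nat.div_add_mod N p
  have hmod : N % p < p := Nat.mod_lt _ hp
  -- `p * (r M) + r = q^j * N`
  have key : p * (r * M) + r = q ^ j * (p * (N / p) + N % p) := by
    rw [hdm, hN]
    calc p * (r * M) + r = r * (p * M + 1) := by ring
      _ = r * (q ^ j * q ^ (f - j)) := by rw [hpM, hsplit]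
      _ = q ^ j * (r * q ^ (f - j)) := by ring
  apply Nat.div_eq_of_lt_le
  · -- `u * q^j ≤ m`
    by_contra hcon
    push Not at hcon
    have h1 : p * (r * M) + p ≤ p * (N / p * q ^ j) := by
      calc p * (r * M) + p = p * (r * M + 1) := by ring
        _ ≤ p * (N / p * q ^ j) := Nat.mul_le_mul_left _ hcon
    have h2 : p * (N / p * q ^ j) ≤ q ^ j * (p * (N / p) + N % p) := by
      calc p * (N / p * q ^ j) = q ^ j * (p * (N / p)) := by ring
        _ ≤ q ^ j * (p * (N / p) + N % p) := Nat.mul_le_mul_left _ (Nat.le_add_right _ _)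
    omega
  · -- `m < (u + 1) * q^j`
    have h1 : q ^ j * (p * (N / p) + N % p) < q ^ j * (p * (N / p) + p) :=
      Nat.mul_lt_mul_of_pos_left (by omega) hqj
    have h2 : p * (r * M) < p * ((N / p + 1) * q ^ j) := by
      calc p * (r * M) ≤ p * (r * M) + r := Nat.le_add_right _ _
        _ = q ^ j * (p * (N / p) + N % p) := key
        _ < q ^ j * (p * (N / p) + p) := h1
        _ = p * ((N / p + 1) * q ^ j) := by ring
    exact Nat.lt_of_mul_lt_mul_left h2

/-- The residue sum `∑_{i<f} (r q^i mod p)`. -/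
def resSum (q p f r : ℕ) : ℕ := ∑ i ∈ range f, (r * q ^ i) % p

/-- **Digit sum of `r (q^f - 1) / p`**: `p · s(m) = (q - 1) ∑_{i<f} (r q^i mod p)`. -/
theorem mul_digitSum_frac (hq : 1 < q) (hp : 0 < p) (hpf : p ∣ q ^ f - 1) {r : ℕ} (hr : r < p) :
    p * digitSum q (r * ((q ^ f - 1) / p)) = (q - 1) * resSum q p f r := by
  set M := (q ^ f - 1) / p with hM
  have hqf : 0 < q ^ f := Nat.pos_of_ne_zero (pow_ne_zero _ (by omega))
  have hpM : p * M + 1 = q ^ f := by
    rw [hM, Nat.mul_div_cancel' hpf]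
    omega
  have hm_lt : r * M < q ^ f := by
    have : r * M ≤ p * M := Nat.mul_le_mul_right _ hr.le
    omega
  have hleg := legendre_digitSum hq f (r * M) hm_lt
  -- rewrite the floors
  have hsum : ∑ i ∈ range f, (r * M) / q ^ (i + 1) = ∑ i ∈ range f, (r * q ^ i) / p := by
    rw [← sum_range_reflect (fun i => (r * q ^ i) / p) f]
    refine sum_congr rfl fun i hi => ?_
    have hi' : i + 1 ≤ f := by
      have := mem_range.mp hi
      omega
    rw [frac_div_pow hq hp hpf hr hi']
    congr 3
    omega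
  rw [hsum] at hleg
  -- `(q-1) ∑ r q^i = p (r M)`
  have hgeom : (q - 1) * ∑ i ∈ range f, r * q ^ i = p * (r * M) := by
    have := sub_one_mul_geom_sum_add_one (by omega : 1 ≤ q) f
    rw [← mul_sum]
    have h2 : (q - 1) * ∑ i ∈ range f, q ^ i = p * M := by omega
    calc (q - 1) * (r * ∑ i ∈ range f, q ^ i) = r * ((q - 1) * ∑ i ∈ range f, q ^ i) := by ring
      _ = r * (p * M) := by rw [h2]
      _ = p * (r * M) := by ring
  have hdm : ∑ i ∈ range f, r * q ^ i
      = p * ∑ i ∈ range f, (r * q ^ i) / p + resSum q p f r := by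
    rw [resSum, mul_sum, ← sum_add_distrib]
    exact sum_congr rfl fun i _ => (Nat.div_add_mod _ _).symm
  rw [hdm, mul_add] at hgeom
  -- combine
  have h3 : p * ((q - 1) * ∑ i ∈ range f, (r * q ^ i) / p) + p * digitSum q (r * M)
      = p * (r * M) := by
    rw [← mul_add, hleg]
  have h4 : (q - 1) * (p * ∑ i ∈ range f, (r * q ^ i) / p)
      = p * ((q - 1) * ∑ i ∈ range f, (r * q ^ i) / p) := by ring
  omega

/-- The carry count `#{i < f : p ≤ 2 (r q^i mod p)}`. -/
def carryCount (q p f r : ℕ) : ℕ := ((range f).filter fun i => p ≤ 2 * ((r * q ^ i) % p)).card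

theorem two_mul_resSum (hp : 0 < p) (r : ℕ) :
    2 * resSum q p f r = resSum q p f ((2 * r) % p) + p * carryCount q p f r := by
  rw [resSum, resSum, carryCount, mul_sum, card_filter, mul_sum, ← sum_add_distrib]
  refine sum_congr rfl fun i _ => ?_
  have h1 : ((2 * r) % p * q ^ i) % p = (2 * ((r * q ^ i) % p)) % p := by
    rw [Nat.mod_mul_mod, Nat.mul_mod_mod, mul_assoc]
  rw [h1]
  have hlt : (r * q ^ i) % p < p := Nat.mod_lt _ hp
  split_ifs with h
  · have : (2 * ((r * q ^ i) % p)) % p = 2 * ((r * q ^ i) % p) - p := by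
      rw [Nat.mod_eq_sub_mod h, Nat.mod_eq_of_lt (by omega)]
    omega
  · push Not at h
    rw [Nat.mod_eq_of_lt h]
    omega

/-- **Number of carries**: `2 s(m_r) = s(m_{2r mod p}) + (q - 1) · #{i<f : p ≤ 2 (r q^i mod p)}`
for `m_r = r (q^f - 1) / p`. -/
theorem two_mul_digitSum_frac (hq : 1 < q) (hp : 0 < p) (hpf : p ∣ q ^ f - 1) {r : ℕ}
    (hr : r < p) :
    2 * digitSum q (r * ((q ^ f - 1) / p))
      = digitSum q (((2 * r) % p) * ((q ^ f - 1) / p)) + (q - 1) * carryCount q p f r := by
  have h1 := mul_digitSum_frac hq hp hpf hr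
  have h2 := mul_digitSum_frac hq hp hpf (Nat.mod_lt (2 * r) hp)
  have h3 := two_mul_resSum (q := q) (f := f) hp r
  have h4 : p * (2 * digitSum q (r * ((q ^ f - 1) / p)))
      = p * (digitSum q (((2 * r) % p) * ((q ^ f - 1) / p)) + (q - 1) * carryCount q p f r) := by
    rw [mul_add, h2]
    calc p * (2 * digitSum q (r * ((q ^ f - 1) / p)))
        = 2 * (p * digitSum q (r * ((q ^ f - 1) / p))) := by ring
      _ = (q - 1) * (2 * resSum q p f r) := by rw [h1]; ring
      _ = (q - 1) * resSum q p f ((2 * r) % p) + p * ((q - 1) * carryCount q p f r) := by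
          rw [h3]; ring
  exact Nat.eq_of_mul_eq_mul_left hp h4

/-- `2 m_r ≡ m_{2r mod p}` modulo `q^f - 1`. -/
theorem two_mul_frac_mod (hp : 0 < p) (hpf : p ∣ q ^ f - 1) (r : ℕ) :
    (r * ((q ^ f - 1) / p) + r * ((q ^ f - 1) / p)) % (q ^ f - 1)
      = ((2 * r) % p) * ((q ^ f - 1) / p) := by
  set M := (q ^ f - 1) / p with hM
  have hpM : p * M = q ^ f - 1 := by rw [hM, Nat.mul_div_cancel' hpf]
  have hdm := Nat.div_add_mod (2 * r) p
  rcases Nat.eq_zero_or_pos M with hM0 | hM0
  · rw [hM0]; simp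
  have hlt : ((2 * r) % p) * M < q ^ f - 1 := by
    rw [← hpM]
    exact Nat.mul_lt_mul_of_pos_right (Nat.mod_lt _ hp) hM0
  have : r * M + r * M = ((2 * r) % p) * M + (2 * r / p) * (q ^ f - 1) := by
    rw [← hpM]
    calc r * M + r * M = (2 * r) * M := by ring
      _ = (p * (2 * r / p) + (2 * r) % p) * M := by rw [hdm]
      _ = ((2 * r) % p) * M + (2 * r / p) * (p * M) := by ring
  rw [this, Nat.add_mul_mod_self_right, Nat.mod_eq_of_lt hlt]

/-- The complementary count: `carryCount r + carryCount (p - r) = f` when no residue is `0`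
or `p / 2`, e.g. `p` an odd prime not dividing `q`, `0 < r < p`. -/
theorem carryCount_add_carryCount_compl (hp : 0 < p) (hodd : ¬ 2 ∣ p) {r : ℕ} (hr : r ≤ p)
    (hne : ∀ i < f, (r * q ^ i) % p ≠ 0) :
    carryCount q p f r + carryCount q p f (p - r) = f := by
  rw [carryCount, carryCount, card_filter, card_filter, ← sum_add_distrib]
  have : ∀ i ∈ range f, ((if p ≤ 2 * ((r * q ^ i) % p) then 1 else 0)
      + if p ≤ 2 * (((p - r) * q ^ i) % p) then 1 else 0) = 1 := by
    intro i hi
    have h0 := hne i (mem_range.mp hi)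
    have hlt : (r * q ^ i) % p < p := Nat.mod_lt _ hp
    -- `(p - r) q^i ≡ p - ρ`
    have h1 : ((p - r) * q ^ i) % p = p - (r * q ^ i) % p := by
      have h2 : ((p - r) * q ^ i + r * q ^ i) % p = 0 := by
        rw [← add_mul, Nat.sub_add_cancel hr, Nat.mul_mod_right]
      have h3 : ((p - r) * q ^ i) % p < p := Nat.mod_lt _ hp
      rw [Nat.add_mod] at h2
      have h4 : ((p - r) * q ^ i % p + r * q ^ i % p) = p := by
        have h5 : ((p - r) * q ^ i % p + r * q ^ i % p) < 2 * p := by omega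
        have h6 : p ∣ ((p - r) * q ^ i % p + r * q ^ i % p) := Nat.dvd_of_mod_eq_zero h2
        obtain ⟨c, hc⟩ := h6
        have hc1 : c < 2 := by
          by_contra hcon
          push Not at hcon
          have : p * 2 ≤ p * c := Nat.mul_le_mul_left _ hcon
          omega
        have hc0 : c ≠ 0 := by
          rintro rfl
          omega
        have : c = 1 := by omega
        rw [hc, this, mul_one]
      omega
    rw [h1]
    have hne2 : 2 * ((r * q ^ i) % p) ≠ p := by
      intro h
      exact hodd ⟨_, h.symm⟩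
    split_ifs <;> omega
  rw [sum_congr rfl this]
  simp

end Frac

end Fermat.Agent.CFT.Stickelberger
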