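import Mathlib
import Fermat.Agent.CFT.Stickelberger.Digits

/-!
# S14(i) Stickelberger, part 2: valuations of Gauss and Jacobi sums (abstract local form)

`F` is a finite field with `Q = q^f` elements.  A *Teichmüller datum* `T : TeichDatum F W K₀` is a
domain `W ⊆ K₀` with a residue map `res : W → F`, a multiplicative section `τ : F → W`, and an
additive "valuation" `ν : K₀ → ℤ` which vanishes on the elements of `W` with nonzero residue.
(Instance: Witt vectors of `F`.)

For the Teichmüller character `ω = τ` and `χ_a = ω^{-a}` we prove **Stickelberger's valuation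
formula for Jacobi sums**:
`(q - 1) ν(J(χ_m, χ_n)) + s((m + n) mod (Q - 1)) ν(q) = (s(m) + s(n)) ν(q)`
(`s` = base-`q` digit sum), via Gauss sums in an auxiliary finite extension `R / K₀` carrying a
Frobenius-invariant primitive additive character.  The classical base case `g(1) ≡ π mod π²` is
replaced by the product formula `g(a) g(-a) = ± Q`, so no arithmetic of `ζ_q - 1` is needed.
-/

set_option autoImplicit false
set_option linter.unusedSectionVars false

namespace Fermat.Agent.CFT.Stickelberger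

open Finset

section Residue

variable {F : Type*} [Field F] [Fintype F]

theorem inv_eq_pow_card_sub_two (hF : 2 < Fintype.card F) (w : F) :
    w⁻¹ = w ^ (Fintype.card F - 2) := by
  rcases eq_or_ne w 0 with rfl | hw
  · rw [inv_zero, zero_pow (by omega)]
  · have h1 : w ^ (Fintype.card F - 1) = 1 := FiniteField.pow_card_sub_one_eq_one w hw
    have h2 : Fintype.card F - 1 = (Fintype.card F - 2) + 1 := by omega
    rw [h2, pow_succ] at h1
    exact (eq_inv_of_mul_eq_one_left h1).symm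

theorem sum_inv_eq_zero (hF : 2 < Fintype.card F) : ∑ w : F, w⁻¹ = 0 := by
  simp_rw [inv_eq_pow_card_sub_two hF]
  exact FiniteField.sum_pow_lt_card_sub_one F _ (by omega)

/-- The residue of the Jacobi sum `J(ω^{-a}, ω^{-1})`. -/
theorem sum_inv_pow_mul_inv (a : ℕ) (ha : 1 ≤ a) (ha' : a + 1 < Fintype.card F) :
    ∑ x : F, (x⁻¹) ^ a * (1 - x)⁻¹ = -((a : F) + 1) := by
  classical
  have hF : 2 < Fintype.card F := by omega
  -- substitute `x = z⁻¹`
  have h1 : ∑ x : F, (x⁻¹) ^ a * (1 - x)⁻¹ = ∑ z : F, z ^ a * (1 - z⁻¹)⁻¹ := by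
    refine Fintype.sum_equiv (Equiv.inv F) _ _ fun x => ?_
    simp
  rw [h1]
  -- pointwise identity
  have h2 : ∀ z : F, z ^ a * (1 - z⁻¹)⁻¹
      = -((1 - z)⁻¹ - ∑ i ∈ range (a + 1), z ^ i + if z = 1 then ((a : F) + 1) else 0) := by
    intro z
    rcases eq_or_ne z 1 with rfl | hz1
    · simp
    rw [if_neg hz1, add_zero]
    rcases eq_or_ne z 0 with rfl | hz0
    · rw [zero_pow (by omega), zero_mul, sub_zero, inv_one, sum_range_succ']
      simp
    have h1z : (1 - z) ≠ 0 := sub_ne_zero.mpr (Ne.symm hz1)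
    have hgeom : (1 - z) * ∑ i ∈ range (a + 1), z ^ i = 1 - z ^ (a + 1) :=
      mul_neg_geom_sum z (a + 1)
    have hG : ∑ i ∈ range (a + 1), z ^ i = (1 - z ^ (a + 1)) * (1 - z)⁻¹ := by
      rw [← hgeom]
      field_simp
    rw [hG]
    have h3 : (1 - z⁻¹)⁻¹ = -(z * (1 - z)⁻¹) := by
      apply inv_eq_of_mul_eq_one_right
      field_simp
      ring
    rw [h3, pow_succ]
    ring
  simp_rw [h2]
  rw [sum_neg_distrib, sum_add_distrib, sum_sub_distrib]
  have h3 : ∑ z : F, (1 - z)⁻¹ = 0 := by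
    rw [← sum_inv_eq_zero hF]
    exact Fintype.sum_equiv (Equiv.subLeft 1) _ _ fun x => rfl
  have h4 : ∑ z : F, ∑ i ∈ range (a + 1), z ^ i = 0 := by
    rw [sum_comm]
    refine sum_eq_zero fun i hi => ?_
    exact FiniteField.sum_pow_lt_card_sub_one F i (by have := mem_range.mp hi; omega)
  rw [h3, h4, sum_ite_eq' univ (1 : F)]
  simp

end Residue

/-- An abstract Teichmüller datum for the finite field `F`. -/
structure TeichDatum (F W K₀ : Type*) [Field F] [CommRing W] [Field K₀] [Algebra W K₀] where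
  /-- the residue map -/
  res : W →+* F
  /-- the Teichmüller lift -/
  τ : F →* W
  res_τ : ∀ x, res (τ x) = x
  τ_zero : τ 0 = 0
  /-- the additive valuation -/
  ν : K₀ → ℤ
  ν_mul : ∀ x y, x ≠ 0 → y ≠ 0 → ν (x * y) = ν x + ν y
  ν_unit : ∀ w : W, res w ≠ 0 → ν (algebraMap W K₀ w) = 0
  inj : Function.Injective (algebraMap W K₀)

/-- The embedding `W → K₀ → R`. -/
noncomputable def iotaHom (W K₀ R : Type*) [CommRing W] [Field K₀] [Algebra W K₀] [Field R]
    [Algebra K₀ R] : W →+* R :=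
  (algebraMap K₀ R).comp (algebraMap W K₀)

theorem card_ne_zero_of_charZero (F K₀ R : Type*) [Fintype F] [Nonempty F] [Field K₀] [CharZero K₀]
    [Field R] [Algebra K₀ R] : (Fintype.card F : R) ≠ 0 := by
  have : CharZero R := charZero_of_injective_algebraMap (algebraMap K₀ R).injective
  exact Nat.cast_ne_zero.mpr Fintype.card_ne_zero

namespace TeichDatum

variable {F W K₀ : Type*} [Field F] [Fintype F] [CommRing W] [IsDomain W] [Field K₀]
  [Algebra W K₀] (T : TeichDatum F W K₀)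

theorem ν_one : T.ν 1 = 0 := by
  have := T.ν_mul 1 1 one_ne_zero one_ne_zero
  rw [mul_one] at this
  omega

theorem ν_pow {x : K₀} (hx : x ≠ 0) (n : ℕ) : T.ν (x ^ n) = n * T.ν x := by
  induction n with
  | zero => simp [T.ν_one]
  | succ n ih =>
    rw [pow_succ, T.ν_mul _ _ (pow_ne_zero n hx) hx, ih]
    push_cast
    ring

theorem ν_of_sq_eq_one {x : K₀} (hx : x ^ 2 = 1) : T.ν x = 0 := by
  have hx0 : x ≠ 0 := by
    rintro rfl
    simp at hx
  have := T.ν_pow hx0 2
  rw [hx, T.ν_one] at this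
  push_cast at this
  omega

/-- The Teichmüller character. -/
def omega : MulChar F W where
  toFun := T.τ
  map_one' := T.τ.map_one
  map_mul' := T.τ.map_mul
  map_nonunit' := fun a ha => by
    have h0 : a = 0 := by
      by_contra h
      exact ha (isUnit_iff_ne_zero.mpr h)
    rw [h0]
    exact T.τ_zero

theorem omega_apply (x : F) : T.omega x = T.τ x := rfl

/-- `χ_a = ω^{-a}`. -/
noncomputable def chi (a : ℕ) : MulChar F W := (T.omega)⁻¹ ^ a

theorem chi_apply {a : ℕ} (ha : a ≠ 0) (x : F) : T.chi a x = T.τ (x⁻¹) ^ a := by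
  rw [chi, MulChar.pow_apply' _ ha, MulChar.inv_apply', omega_apply]

theorem res_chi {a : ℕ} (ha : a ≠ 0) (x : F) : T.res (T.chi a x) = (x⁻¹) ^ a := by
  rw [T.chi_apply ha, map_pow, T.res_τ]

theorem chi_add (a b : ℕ) : T.chi (a + b) = T.chi a * T.chi b := pow_add _ _ _

theorem chi_mul (a b : ℕ) : T.chi (a * b) = T.chi b ^ a := by
  rw [chi, chi, mul_comm, pow_mul]

theorem chi_card_sub_one : T.chi (Fintype.card F - 1) = 1 := by
  classical
  rw [chi, ← Fintype.card_units]
  exact MulChar.pow_card_eq_one _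

theorem chi_mod (a : ℕ) : T.chi (a % (Fintype.card F - 1)) = T.chi a := by
  rw [chi, chi]
  exact (pow_eq_pow_mod a T.chi_card_sub_one).symm

theorem chi_ne_one {a : ℕ} (ha : 0 < a) (ha' : a < Fintype.card F - 1) : T.chi a ≠ 1 := by
  intro h
  have h1 : ∀ x : Fˣ, x ^ a = 1 := by
    intro x
    have h2 : T.res (T.chi a (x⁻¹ : Fˣ)) = 1 := by
      rw [h, MulChar.one_apply_coe, map_one]
    rw [T.res_chi (by omega)] at h2
    rw [← Units.val_inj]
    simpa using h2
  rw [FiniteField.forall_pow_eq_one_iff] at h1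
  exact absurd (Nat.le_of_dvd ha h1) (by omega)

theorem chi_compl {a : ℕ} (ha : a ≤ Fintype.card F - 1) :
    T.chi (Fintype.card F - 1 - a) = (T.chi a)⁻¹ := by
  refine eq_inv_of_mul_eq_one_left ?_
  rw [← chi_add, Nat.sub_add_cancel ha, chi_card_sub_one]

/-- The residue of the Jacobi sum `J(χ_a, χ_1)` is `-(a + 1)`. -/
theorem res_jacobiSum_chi_one {a : ℕ} (ha : 1 ≤ a) (ha' : a + 1 < Fintype.card F) :
    T.res (jacobiSum (T.chi a) (T.chi 1)) = -((a : F) + 1) := by
  rw [jacobiSum, map_sum, ← sum_inv_pow_mul_inv a ha ha']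
  refine sum_congr rfl fun x _ => ?_
  rw [map_mul, T.res_chi (by omega), T.res_chi one_ne_zero, pow_one]

section Gauss

variable (q : ℕ) [hq : Fact q.Prime] [CharP F q] [CharZero K₀]
  {R : Type*} [Field R] [Algebra K₀ R] [FiniteDimensional K₀ R]
  (ψ : AddChar F R)

include T in
theorem iota_injective : Function.Injective (iotaHom W K₀ R) :=
  (algebraMap K₀ R).injective.comp T.inj

/-- `χ_a` with values in `R`. -/
noncomputable def chiR (a : ℕ) : MulChar F R := (T.chi a).ringHomComp (iotaHom W K₀ R)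

theorem chiR_add (a b : ℕ) : T.chiR (R := R) (a + b) = T.chiR a * T.chiR b := by
  rw [chiR, chi_add, MulChar.ringHomComp_mul]
  rfl

theorem chiR_ne_one {a : ℕ} (ha : 0 < a) (ha' : a < Fintype.card F - 1) :
    T.chiR (R := R) a ≠ 1 :=
  (MulChar.ringHomComp_ne_one_iff T.iota_injective).mpr (T.chi_ne_one ha ha')

theorem chiR_mod (a : ℕ) : T.chiR (R := R) (a % (Fintype.card F - 1)) = T.chiR a := by
  rw [chiR, chiR, chi_mod]

theorem chiR_compl {a : ℕ} (ha : a ≤ Fintype.card F - 1) :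
    T.chiR (R := R) (Fintype.card F - 1 - a) = (T.chiR a)⁻¹ := by
  rw [chiR, chiR, chi_compl T ha, MulChar.ringHomComp_inv]

/-- The Gauss sum `g(a) = g(χ_a, ψ)`. -/
noncomputable def gs (a : ℕ) : R := gaussSum (T.chiR a) ψ

/-- `V(a) = ν(N_{R/K₀} g(a))`. -/
noncomputable def V (a : ℕ) : ℤ := T.ν (Algebra.norm K₀ (T.gs ψ a))

variable {ψ}

theorem gs_mul_jacobi {m n : ℕ} (h : T.chiR (R := R) (m + n) ≠ 1) :
    T.gs ψ (m + n) * iotaHom W K₀ R (jacobiSum (T.chi m) (T.chi n)) = T.gs ψ m * T.gs ψ n := by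
  rw [gs, gs, gs, ← jacobiSum_ringHomComp]
  rw [chiR_add] at h ⊢
  exact jacobiSum_mul_nontrivial h ψ

include hq in
theorem gs_frob (hψq : ∀ x, ψ (x ^ q) = ψ x) (a : ℕ) : T.gs ψ (q * a) = T.gs ψ a := by
  rw [gs, gs, gaussSum, gaussSum]
  rw [← Fintype.sum_bijective (frobenius F q) (bijective_frobenius F q)
    (fun x => T.chiR (R := R) a (x ^ q) * ψ (x ^ q)) (fun y => T.chiR a y * ψ y) (fun x => rfl)]
  refine sum_congr rfl fun x _ => ?_
  rw [hψq, chiR, chiR, chi_mul]
  simp only [MulChar.ringHomComp_apply]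
  rcases Nat.eq_zero_or_pos q with h0 | h0
  · exact absurd h0 hq.out.ne_zero
  rw [MulChar.pow_apply' _ (by omega)]
  simp only [map_pow]

theorem gs_mul_gs_compl (hψ : ψ.IsPrimitive) {a : ℕ} (ha : 0 < a)
    (ha' : a < Fintype.card F - 1) :
    T.gs ψ a * T.gs ψ (Fintype.card F - 1 - a)
      = (T.chiR (R := R) a)⁻¹ (-1) * (Fintype.card F : R) := by
  rw [gs, gs, chiR_compl T ha'.le, ← mul_gaussSum_inv_eq_gaussSum (T.chiR a)⁻¹ ψ,
    mul_left_comm, gaussSum_mul_gaussSum_eq_card (T.chiR_ne_one ha ha') hψ]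

theorem gs_ne_zero (hψ : ψ.IsPrimitive) {a : ℕ} (ha : 0 < a) (ha' : a < Fintype.card F - 1) :
    T.gs ψ a ≠ 0 := by
  intro h
  have h1 := T.gs_mul_gs_compl hψ ha ha'
  rw [h, zero_mul] at h1
  have h2 : (T.chiR (R := R) a)⁻¹ (-1) ≠ 0 := by
    have : IsUnit (-1 : F) := isUnit_one.neg
    exact (MulChar.apply_ne_zero_iff.mpr this)
  exact mul_ne_zero h2 (card_ne_zero_of_charZero F K₀ R) h1.symm

theorem norm_ne_zero {x : R} (hx : x ≠ 0) : Algebra.norm K₀ x ≠ 0 := by
  rwa [Ne, Algebra.norm_eq_zero_iff]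

/-- `ν(N(ι w)) = [R : K₀] ν(w)`. -/
theorem ν_norm_iota {w : W} (hw : w ≠ 0) :
    T.ν (Algebra.norm K₀ (iotaHom W K₀ R w))
      = (Module.finrank K₀ R : ℤ) * T.ν (algebraMap W K₀ w) := by
  have h0 : algebraMap W K₀ w ≠ 0 := by
    rwa [Ne, ← map_zero (algebraMap W K₀), T.inj.eq_iff]
  rw [iotaHom, RingHom.comp_apply, Algebra.norm_algebraMap, T.ν_pow h0]

theorem V_add_of_jacobi_unit (hψ : ψ.IsPrimitive) {m n : ℕ} (hm : 0 < m)
    (hm' : m < Fintype.card F - 1) (hn : 0 < n) (hn' : n < Fintype.card F - 1)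
    (hmn : m + n < Fintype.card F - 1) :
    T.V ψ (m + n) + (Module.finrank K₀ R : ℤ)
        * T.ν (algebraMap W K₀ (jacobiSum (T.chi m) (T.chi n)))
      = T.V ψ m + T.V ψ n := by
  have hne : T.chiR (R := R) (m + n) ≠ 1 := T.chiR_ne_one (by omega) hmn
  have hrel := T.gs_mul_jacobi (ψ := ψ) hne
  have h1 := T.gs_ne_zero hψ hm hm'
  have h2 := T.gs_ne_zero hψ hn hn'
  have h3 := T.gs_ne_zero hψ (by omega : 0 < m + n) hmn
  have hJ : iotaHom W K₀ R (jacobiSum (T.chi m) (T.chi n)) ≠ 0 := by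
    intro h
    rw [h, mul_zero] at hrel
    exact mul_ne_zero h1 h2 hrel.symm
  have hJ0 : jacobiSum (T.chi m) (T.chi n) ≠ 0 := by
    rintro h
    rw [h, map_zero] at hJ
    exact hJ rfl
  have := congrArg (fun x => T.ν (Algebra.norm K₀ x)) hrel
  simp only [map_mul] at this
  rw [T.ν_mul _ _ (norm_ne_zero h3) (norm_ne_zero hJ),
    T.ν_mul _ _ (norm_ne_zero h1) (norm_ne_zero h2), T.ν_norm_iota hJ0] at this
  exact this

include hq in
/-- The inductive step/Frobenius step give `V(a) = s(a) V(1)`. -/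
theorem V_eq_digitSum_mul (hψ : ψ.IsPrimitive) (hψq : ∀ x, ψ (x ^ q) = ψ x) :
    ∀ a : ℕ, 1 ≤ a → a < Fintype.card F - 1 → T.V ψ a = (digitSum q a : ℤ) * T.V ψ 1 := by
  have hq1 : 1 < q := hq.out.one_lt
  intro a
  induction a using Nat.strong_induction_on with
  | _ a ih =>
    intro ha ha'
    rcases Nat.lt_or_ge 1 a with h1 | h1
    swap
    · have : a = 1 := by omega
      subst this
      rw [digitSum_one hq1]
      simp
    by_cases hmod : a % q = 0
    · -- `a = q * a'`
      obtain ⟨a', rfl⟩ := Nat.dvd_of_mod_eq_zero hmod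
      have ha'0 : 0 < a' := by
        rcases Nat.eq_zero_or_pos a' with h | h
        · rw [h] at ha; omega
        · exact h
      have hlt : a' < q * a' := by nlinarith
      have := ih a' hlt ha'0 (by omega)
      rw [V, T.gs_frob q hψq, digitSum_mul hq1]
      exact this
    · -- `a = b + 1`, no carry
      obtain ⟨b, rfl⟩ : ∃ b, a = b + 1 := ⟨a - 1, by omega⟩
      have hb : 1 ≤ b := by omega
      have hcarry : b % q + 1 < q := by
        have h2 : b % q < q := Nat.mod_lt _ (by omega)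
        by_contra hcon
        have h3 : b % q + 1 = q := by omega
        apply hmod
        rw [Nat.add_mod, Nat.mod_eq_of_lt hq1, h3, Nat.mod_self]
      have hres : T.res (jacobiSum (T.chi b) (T.chi 1)) ≠ 0 := by
        rw [T.res_jacobiSum_chi_one hb (by omega), neg_ne_zero]
        have : ((b : F) + 1) = ((b + 1 : ℕ) : F) := by push_cast; ring
        rw [this, Ne, CharP.cast_eq_zero_iff F q]
        intro hdvd
        exact hmod (Nat.mod_eq_zero_of_dvd hdvd)
      have hstep := T.V_add_of_jacobi_unit hψ (m := b) (n := 1) (by omega) (by omega)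
        one_pos (by omega) ha'
      rw [T.ν_unit _ hres, mul_zero, add_zero] at hstep
      rw [hstep, ih b (by omega) hb (by omega), digitSum_succ hq1 b hcarry]
      push_cast
      ring

include hq in
/-- The product formula pins down `V(1)`: `(q - 1) V(1) = [R : K₀] ν(q)`. -/
theorem sub_one_mul_V_one (hψ : ψ.IsPrimitive) (hψq : ∀ x, ψ (x ^ q) = ψ x) {f : ℕ}
    (hf : f ≠ 0) (hQ : Fintype.card F = q ^ f) (hQ3 : 3 < Fintype.card F) :
    ((q : ℤ) - 1) * T.V ψ 1 = (Module.finrank K₀ R : ℤ) * T.ν (q : K₀) := by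
  have hq1 : 1 < q := hq.out.one_lt
  have hq0 : (q : K₀) ≠ 0 := Nat.cast_ne_zero.mpr hq.out.ne_zero
  have h1 := T.gs_mul_gs_compl (ψ := ψ) hψ one_pos (by omega : 1 < Fintype.card F - 1)
  have hg1 := T.gs_ne_zero hψ one_pos (by omega : 1 < Fintype.card F - 1)
  have hg2 := T.gs_ne_zero hψ (by omega : 0 < Fintype.card F - 1 - 1) (by omega)
  -- the sign
  set u : W := (T.chi 1)⁻¹ (-1) with hu
  have hu2 : u ^ 2 = 1 := by
    rw [hu, ← map_pow]
    simp
  have hu0 : u ≠ 0 := by
    rintro h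
    rw [h] at hu2
    simp at hu2
  have hsign : (T.chiR (R := R) 1)⁻¹ (-1) = iotaHom W K₀ R u := by
    rw [chiR, MulChar.ringHomComp_inv, MulChar.ringHomComp_apply]
  have hνu : T.ν (algebraMap W K₀ u) = 0 := by
    apply T.ν_of_sq_eq_one
    rw [← map_pow, hu2, map_one]
  have hcard : (Fintype.card F : R) = algebraMap K₀ R ((q : K₀) ^ f) := by
    rw [hQ]
    push_cast
    simp
  have := congrArg (fun x => T.ν (Algebra.norm K₀ x)) h1
  simp only [map_mul] at this
  rw [T.ν_mul _ _ (norm_ne_zero hg1) (norm_ne_zero hg2), hsign, hcard, Algebra.norm_algebraMap,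
    T.ν_mul _ _ (norm_ne_zero ((map_ne_zero_iff _ T.iota_injective).mpr hu0))
      (pow_ne_zero _ (pow_ne_zero _ hq0)),
    T.ν_norm_iota hu0, hνu, mul_zero, zero_add, T.ν_pow (pow_ne_zero _ hq0), T.ν_pow hq0] at this
  -- `V 1 + V (Q - 2) = d f ν(q)` and `V a = s(a) V 1`
  have hV := T.V_eq_digitSum_mul q hψ hψq
  have e1 := hV 1 le_rfl (by omega)
  have e2 := hV (Fintype.card F - 1 - 1) (by omega) (by omega)
  have hcompl := digitSum_add_digitSum_compl hq1 f 1 (by rw [← hQ]; omega)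
  rw [← hQ, digitSum_one hq1] at hcompl
  change T.V ψ 1 + T.V ψ (Fintype.card F - 1 - 1) = _ at this
  rw [e2] at this
  have hcompl' : (digitSum q (Fintype.card F - 1 - 1) : ℤ) = f * ((q : ℤ) - 1) - 1 := by
    have : (digitSum q (Fintype.card F - 1 - 1) : ℤ) = (f * (q - 1) : ℕ) - 1 := by
      rw [← hcompl]
      push_cast
      ring
    rw [this]
    push_cast [Nat.cast_sub hq1.le]
    ring
  rw [hcompl'] at this
  have hf' : (f : ℤ) ≠ 0 := Nat.cast_ne_zero.mpr hf
  have key : (f : ℤ) * (((q : ℤ) - 1) * T.V ψ 1)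
      = (f : ℤ) * ((Module.finrank K₀ R : ℤ) * T.ν (q : K₀)) := by
    linear_combination this
  exact mul_left_cancel₀ hf' key

include hq in
/-- **Stickelberger's valuation formula for Jacobi sums.** -/
theorem sub_one_mul_ν_jacobiSum (hψ : ψ.IsPrimitive) (hψq : ∀ x, ψ (x ^ q) = ψ x) {f : ℕ}
    (hf : f ≠ 0) (hQ : Fintype.card F = q ^ f) (hQ3 : 3 < Fintype.card F)
    {m n : ℕ} (hm : 0 < m) (hm' : m < Fintype.card F - 1) (hn : 0 < n)
    (hn' : n < Fintype.card F - 1) (hmn : m + n ≠ Fintype.card F - 1) :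
    ((q : ℤ) - 1) * T.ν (algebraMap W K₀ (jacobiSum (T.chi m) (T.chi n)))
        + (digitSum q ((m + n) % (Fintype.card F - 1)) : ℤ) * T.ν (q : K₀)
      = ((digitSum q m : ℤ) + digitSum q n) * T.ν (q : K₀) := by
  set Q1 := Fintype.card F - 1 with hQ1
  set k := (m + n) % Q1 with hk
  have hk1 : k < Q1 := Nat.mod_lt _ (by omega)
  have hk0 : 0 < k := by
    rcases Nat.eq_zero_or_pos k with h | h
    · exfalso
      have hdvd : Q1 ∣ m + n := Nat.dvd_of_mod_eq_zero (hk ▸ h)
      obtain ⟨c, hc⟩ := hdvd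
      have hc2 : c < 2 := by
        by_contra hcon
        push Not at hcon
        have : Q1 * 2 ≤ Q1 * c := Nat.mul_le_mul_left _ hcon
        omega
      interval_cases c
      · omega
      · omega
    · exact h
  have hne : T.chiR (R := R) (m + n) ≠ 1 := by
    rw [← T.chiR_mod (m + n)]
    exact T.chiR_ne_one hk0 hk1
  have hrel := T.gs_mul_jacobi (ψ := ψ) hne
  have hgk : T.gs ψ (m + n) = T.gs ψ k := by
    rw [gs, gs, ← T.chiR_mod (m + n)]
  rw [hgk] at hrel
  have h1 := T.gs_ne_zero hψ hm hm'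
  have h2 := T.gs_ne_zero hψ hn hn'
  have h3 := T.gs_ne_zero hψ hk0 hk1
  have hJ : iotaHom W K₀ R (jacobiSum (T.chi m) (T.chi n)) ≠ 0 := by
    intro h
    rw [h, mul_zero] at hrel
    exact mul_ne_zero h1 h2 hrel.symm
  have hJ0 : jacobiSum (T.chi m) (T.chi n) ≠ 0 := by
    rintro h
    rw [h, map_zero] at hJ
    exact hJ rfl
  have := congrArg (fun x => T.ν (Algebra.norm K₀ x)) hrel
  simp only [map_mul] at this
  rw [T.ν_mul _ _ (norm_ne_zero h3) (norm_ne_zero hJ),
    T.ν_mul _ _ (norm_ne_zero h1) (norm_ne_zero h2), T.ν_norm_iota hJ0] at this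
  have hV := T.V_eq_digitSum_mul q hψ hψq
  change T.V ψ k + _ = T.V ψ m + T.V ψ n at this
  rw [hV k hk0 hk1, hV m hm hm', hV n hn hn'] at this
  have hV1 := T.sub_one_mul_V_one q hψ hψq hf hQ hQ3
  have hd : (Module.finrank K₀ R : ℤ) ≠ 0 :=
    Nat.cast_ne_zero.mpr Module.finrank_pos.ne'
  have key : (Module.finrank K₀ R : ℤ) * (((q : ℤ) - 1)
        * T.ν (algebraMap W K₀ (jacobiSum (T.chi m) (T.chi n)))
        + (digitSum q k : ℤ) * T.ν (q : K₀))
      = (Module.finrank K₀ R : ℤ) * (((digitSum q m : ℤ) + digitSum q n) * T.ν (q : K₀)) := by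
    linear_combination ((q : ℤ) - 1) * this
      + ((digitSum q m : ℤ) + digitSum q n - digitSum q k) * hV1
  exact mul_left_cancel₀ hd key

end Gauss

end TeichDatum

end Fermat.Agent.CFT.Stickelberger
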