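import Mathlib
import Fermat.Agent.CFT.Stickelberger.GaussVal

/-!
# S14(i) Stickelberger, part 3: the Witt-vector instance

For a finite field `F` of characteristic `q` with `q^f` elements, the ring `𝕎 F` of Witt vectors
with `res = constantCoeff`, `τ = teichmuller` and `ν = ` the normalised `q`-adic valuation on
`Frac (𝕎 F)` is a Teichmüller datum; `CyclotomicField q (Frac 𝕎 F)` carries the
Frobenius-invariant primitive additive character `x ↦ ζ_q ^ Tr(x)`.  Hence the exact power of `q`
dividing the Jacobi sums of powers of the Teichmüller character (`wittJacobi_pow_dvd_iff`).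
-/

set_option autoImplicit false
set_option linter.unusedSectionVars false
set_option linter.style.haveILetI false

namespace Fermat.Agent.CFT.Stickelberger

open Finset IsDedekindDomain IsDedekindDomain.HeightOneSpectrum

section Witt

variable (q : ℕ) [hq : Fact q.Prime] (F : Type*) [Field F] [Fintype F] [CharP F q]

instance wittCharZero : CharZero (WittVector q F) := by
  obtain ⟨c, hc⟩ := CharP.exists (WittVector q F)
  suffices c = 0 by
    subst this
    exact CharP.charP_to_charZero _
  by_contra hc0
  -- `q ∣ c`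
  have h1 : ((c : ℕ) : WittVector q F) = 0 := CharP.cast_eq_zero _ c
  have h2 : ((c : ℕ) : F) = 0 := by
    have := congrArg (WittVector.constantCoeff (p := q) (R := F)) h1
    rw [map_natCast, map_zero] at this
    exact this
  obtain ⟨c', rfl⟩ := (CharP.cast_eq_zero_iff F q c).mp h2
  rw [Nat.cast_mul] at h1
  have h3 : ((c' : ℕ) : WittVector q F) = 0 := by
    rcases mul_eq_zero.mp h1 with h | h
    · exact absurd h (WittVector.p_nonzero q F)
    · exact h
  have h4 : q * c' ∣ c' := (CharP.cast_eq_zero_iff (WittVector q F) (q * c') c').mp h3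
  have hc' : 0 < c' := Nat.pos_of_ne_zero fun h => hc0 (by rw [h, mul_zero])
  have := Nat.le_of_dvd hc' h4
  have hq1 := hq.out.one_lt
  nlinarith

/-- The fraction field of the Witt vectors. -/
abbrev WittFrac : Type _ := FractionRing (WittVector q F)

/-- The `q`-adic place of `𝕎 F`. -/
noncomputable def wittPlace : HeightOneSpectrum (WittVector q F) :=
  IsDiscreteValuationRing.maximalIdeal (WittVector q F)

theorem wittPlace_asIdeal :
    (wittPlace q F).asIdeal = Ideal.span {(q : WittVector q F)} :=
  (WittVector.irreducible q).maximalIdeal_eq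

/-- The normalised additive valuation on `Frac (𝕎 F)`. -/
noncomputable def wittNu (x : WittFrac q F) : ℤ :=
  -(WithZero.log ((wittPlace q F).valuation (WittFrac q F) x))

theorem wittNu_algebraMap_of_isUnit {w : WittVector q F} (hw : IsUnit w) :
    wittNu q F (algebraMap _ _ w) = 0 := by
  have h1 : (wittPlace q F).valuation (WittFrac q F) (algebraMap _ _ w) = 1 := by
    rw [valuation_of_algebraMap, intValuation_eq_one_iff]
    exact (IsLocalRing.notMem_maximalIdeal.mpr hw)
  rw [wittNu, h1, WithZero.log_one, neg_zero]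

theorem wittNu_q : wittNu q F (q : WittFrac q F) = 1 := by
  have h1 : (wittPlace q F).valuation (WittFrac q F) (algebraMap _ _ (q : WittVector q F))
      = WithZero.exp (-1 : ℤ) := by
    rw [valuation_of_algebraMap]
    exact intValuation_singleton _ (WittVector.p_nonzero q F) (wittPlace_asIdeal q F)
  have h2 : (algebraMap (WittVector q F) (WittFrac q F) (q : WittVector q F))
      = (q : WittFrac q F) := map_natCast _ _
  rw [wittNu, ← h2, h1, WithZero.log_exp]
  simp

/-- The Witt-vector Teichmüller datum. -/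
noncomputable def wittDatum : TeichDatum F (WittVector q F) (WittFrac q F) where
  res := WittVector.constantCoeff
  τ := WittVector.teichmuller q
  res_τ := fun x => WittVector.teichmuller_coeff_zero q x
  τ_zero := WittVector.teichmuller_zero q
  ν := wittNu q F
  ν_mul := fun x y hx hy => by
    have hx' : (wittPlace q F).valuation (WittFrac q F) x ≠ 0 := (Valuation.ne_zero_iff _).mpr hx
    have hy' : (wittPlace q F).valuation (WittFrac q F) y ≠ 0 := (Valuation.ne_zero_iff _).mpr hy
    rw [wittNu, wittNu, wittNu, map_mul, WithZero.log_mul hx' hy']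
    ring
  ν_unit := fun w hw =>
    wittNu_algebraMap_of_isUnit q F (WittVector.isUnit_of_coeff_zero_ne_zero w hw)
  inj := IsFractionRing.injective _ _

theorem witt_pow_dvd_iff {w : WittVector q F} (hw : w ≠ 0) (k : ℕ) :
    (q : WittVector q F) ^ k ∣ w ↔ (k : ℤ) ≤ wittNu q F (algebraMap _ _ w) := by
  have hv0 : (wittPlace q F).valuation (WittFrac q F) (algebraMap _ _ w) ≠ 0 := by
    rw [Valuation.ne_zero_iff]
    rwa [Ne, ← map_zero (algebraMap (WittVector q F) (WittFrac q F)),
      (IsFractionRing.injective _ _).eq_iff]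
  have h1 : (q : WittVector q F) ^ k ∣ w
      ↔ (wittPlace q F).intValuation w ≤ WithZero.exp (-(k : ℤ)) := by
    rw [intValuation_le_pow_iff_dvd, wittPlace_asIdeal, Ideal.span_singleton_pow,
      Ideal.dvd_span_singleton, Ideal.mem_span_singleton]
  rw [h1, ← valuation_of_algebraMap (K := WittFrac q F), ← WithZero.exp_log hv0,
    WithZero.exp_le_exp, wittNu]
  omega

section Psi

/-- Frobenius-invariant primitive additive character `x ↦ ζ_q ^ Tr(x)`. -/
noncomputable def wittPsi :
    haveI : NeZero q := ⟨hq.out.ne_zero⟩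
    AddChar F (CyclotomicField q (WittFrac q F)) :=
  haveI : NeZero q := ⟨hq.out.ne_zero⟩
  letI : Algebra (ZMod q) F := ZMod.algebra F q
  (AddChar.zmodChar q (IsCyclotomicExtension.zeta_pow q (WittFrac q F)
    (CyclotomicField q (WittFrac q F)))).compAddMonoidHom
    (Algebra.trace (ZMod q) F).toAddMonoidHom

theorem wittPsi_apply (x : F) :
    haveI : NeZero q := ⟨hq.out.ne_zero⟩
    letI : Algebra (ZMod q) F := ZMod.algebra F q
    wittPsi q F x = (IsCyclotomicExtension.zeta q (WittFrac q F)
      (CyclotomicField q (WittFrac q F))) ^ (Algebra.trace (ZMod q) F x).val := rfl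

theorem wittPsi_frob (x : F) : wittPsi q F (x ^ q) = wittPsi q F x := by
  haveI : NeZero q := ⟨hq.out.ne_zero⟩
  letI : Algebra (ZMod q) F := ZMod.algebra F q
  rw [wittPsi_apply, wittPsi_apply]
  have h := Algebra.trace_eq_of_algEquiv (FiniteField.frobeniusAlgEquivOfAlgebraic (ZMod q) F) x
  rw [FiniteField.coe_frobeniusAlgEquivOfAlgebraic, ZMod.card] at h
  rw [h]

theorem wittPsi_isPrimitive : (wittPsi q F).IsPrimitive := by
  haveI : NeZero q := ⟨hq.out.ne_zero⟩
  letI : Algebra (ZMod q) F := ZMod.algebra F q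
  apply AddChar.IsPrimitive.of_ne_one
  obtain ⟨a, ha⟩ := Algebra.trace_surjective (ZMod q) F 1
  rw [AddChar.ne_one_iff]
  refine ⟨a, ?_⟩
  rw [wittPsi_apply, ha]
  have hq1 : 1 < q := hq.out.one_lt
  haveI : Fact (1 < q) := ⟨hq1⟩
  rw [ZMod.val_one, pow_one]
  exact (IsCyclotomicExtension.zeta_spec q (WittFrac q F)
    (CyclotomicField q (WittFrac q F))).ne_one hq1

end Psi

/-- **Stickelberger for the Teichmüller character, Witt-vector form.** -/
theorem witt_sub_one_mul_nu_jacobiSum {f : ℕ} (hf : f ≠ 0) (hQ : Fintype.card F = q ^ f)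
    (hQ3 : 3 < Fintype.card F) {m n : ℕ} (hm : 0 < m) (hm' : m < Fintype.card F - 1)
    (hn : 0 < n) (hn' : n < Fintype.card F - 1) (hmn : m + n ≠ Fintype.card F - 1) :
    ((q : ℤ) - 1) * wittNu q F (algebraMap _ _
        (jacobiSum ((wittDatum q F).chi m) ((wittDatum q F).chi n)))
        + (digitSum q ((m + n) % (Fintype.card F - 1)) : ℤ)
      = (digitSum q m : ℤ) + digitSum q n := by
  haveI : NeZero q := ⟨hq.out.ne_zero⟩
  haveI : FiniteDimensional (WittFrac q F) (CyclotomicField q (WittFrac q F)) :=
    IsCyclotomicExtension.finiteDimensional {q} _ _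
  have h := (wittDatum q F).sub_one_mul_ν_jacobiSum q (ψ := wittPsi q F)
    (wittPsi_isPrimitive q F) (wittPsi_frob q F) hf hQ hQ3 hm hm' hn hn' hmn
  have hν : (wittDatum q F).ν (q : WittFrac q F) = 1 := wittNu_q q F
  rw [hν, mul_one, mul_one] at h
  exact h

theorem witt_jacobiSum_ne_zero {m n : ℕ} (hm : 0 < m) (hm' : m < Fintype.card F - 1)
    (hn : 0 < n) (hn' : n < Fintype.card F - 1) (hmn : m + n ≠ Fintype.card F - 1) :
    jacobiSum ((wittDatum q F).chi m) ((wittDatum q F).chi n) ≠ 0 := by
  classical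
  -- `J · J̄ = Q ≠ 0` in the fraction field
  set T := wittDatum q F
  have hk : T.chi m * T.chi n ≠ 1 := by
    rw [← T.chi_add, ← T.chi_mod]
    have hk1 : (m + n) % (Fintype.card F - 1) < Fintype.card F - 1 := Nat.mod_lt _ (by omega)
    refine T.chi_ne_one ?_ hk1
    rcases Nat.eq_zero_or_pos ((m + n) % (Fintype.card F - 1)) with h | h
    · exfalso
      obtain ⟨c, hc⟩ := Nat.dvd_of_mod_eq_zero h
      have hc2 : c < 2 := by
        by_contra hcon
        push Not at hcon
        have : (Fintype.card F - 1) * 2 ≤ (Fintype.card F - 1) * c := Nat.mul_le_mul_left _ hcon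
        omega
      interval_cases c <;> omega
    · exact h
  intro h0
  have key := jacobiSum_mul_jacobiSum_inv (F := F) (F' := WittFrac q F)
    (χ := (T.chi m).ringHomComp (algebraMap _ _)) (φ := (T.chi n).ringHomComp (algebraMap _ _))
    (by
      rw [ringChar.eq_zero, ringChar.eq F q]
      exact hq.out.ne_zero.symm)
    ((MulChar.ringHomComp_ne_one_iff (IsFractionRing.injective _ _)).mpr (T.chi_ne_one hm hm'))
    ((MulChar.ringHomComp_ne_one_iff (IsFractionRing.injective _ _)).mpr (T.chi_ne_one hn hn'))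
    (by
      rw [← MulChar.ringHomComp_mul]
      exact (MulChar.ringHomComp_ne_one_iff (IsFractionRing.injective _ _)).mpr hk)
  rw [jacobiSum_ringHomComp, h0, map_zero, zero_mul] at key
  exact (Nat.cast_ne_zero.mpr Fintype.card_ne_zero) key.symm

/-- Upper bound form: if `q^k` divides the Jacobi sum then `(q - 1) k + s(m+n) ≤ s(m) + s(n)`. -/
theorem witt_pow_dvd_jacobiSum {f : ℕ} (hf : f ≠ 0) (hQ : Fintype.card F = q ^ f)
    (hQ3 : 3 < Fintype.card F) {m n : ℕ} (hm : 0 < m) (hm' : m < Fintype.card F - 1)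
    (hn : 0 < n) (hn' : n < Fintype.card F - 1) (hmn : m + n ≠ Fintype.card F - 1) {k : ℕ}
    (hk : (q : WittVector q F) ^ k ∣
      jacobiSum ((wittDatum q F).chi m) ((wittDatum q F).chi n)) :
    (q - 1) * k + digitSum q ((m + n) % (Fintype.card F - 1)) ≤ digitSum q m + digitSum q n := by
  have h1 := witt_sub_one_mul_nu_jacobiSum q F hf hQ hQ3 hm hm' hn hn' hmn
  have h2 := (witt_pow_dvd_iff q F (witt_jacobiSum_ne_zero q F hm hm' hn hn' hmn) k).mp hk
  have hq1 : 1 ≤ q := hq.out.one_lt.le
  have h3 : ((q : ℤ) - 1) * k ≤ ((q : ℤ) - 1) * wittNu q F (algebraMap _ _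
        (jacobiSum ((wittDatum q F).chi m) ((wittDatum q F).chi n))) :=
    mul_le_mul_of_nonneg_left h2 (by
      have : (1 : ℤ) ≤ q := by exact_mod_cast hq1
      linarith)
  have h4 : (((q - 1) * k + digitSum q ((m + n) % (Fintype.card F - 1)) : ℕ) : ℤ)
      ≤ ((digitSum q m + digitSum q n : ℕ) : ℤ) := by
    push_cast [Nat.cast_sub hq1]
    linarith
  exact_mod_cast h4

end Witt

end Fermat.Agent.CFT.Stickelberger
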