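import Mathlib
import Fermat.Agent.CFT.Stickelberger.GaussWitt

/-!
# S14(i) Stickelberger, part 4: from `ℤ[ζ_p]` to Witt vectors

`K = ℚ(ζ_p)`, `𝔮` a prime of `𝓞 K` over `q ≠ p`, `F = 𝓞 K ⧸ 𝔮` (with `q^f` elements,
`f = ord_p(q)`).  We construct

* `toWitt : 𝓞 K →+* 𝕎 F`, the lift `ζ ↦ teichmuller (ζ mod 𝔮)` of the reduction map, and show
  `x ∈ 𝔮^k → q^k ∣ toWitt x`;
* a multiplicative character `ψ : F → 𝓞 K` of order dividing `p` with
  `ψ x ≡ x^{-(Q-1)/p} mod 𝔮`, whose composition with `toWitt` is `ω^{-(Q-1)/p}`.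
-/

set_option autoImplicit false
set_option linter.unusedSectionVars false
set_option linter.style.haveILetI false

namespace Fermat.Agent.CFT.Stickelberger

open NumberField Ideal Polynomial

attribute [local instance] Ideal.Quotient.field

section Setting

variable (p : ℕ) [hp : Fact p.Prime] (K : Type*) [Field K] [NumberField K]
  [hK : IsCyclotomicExtension {p} ℚ K]
variable (q : ℕ) [hq : Fact q.Prime] (𝔮 : Ideal (𝓞 K)) [h𝔮m : 𝔮.IsMaximal]
  [h𝔮 : 𝔮.LiesOver (Ideal.span {(q : ℤ)})]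

/-- The chosen primitive `p`-th root of unity of `𝓞 K`. -/
noncomputable def zetaInt : 𝓞 K := (IsCyclotomicExtension.zeta_spec p ℚ K).toInteger

theorem zetaInt_isPrimitiveRoot : IsPrimitiveRoot (zetaInt p K) p :=
  (IsCyclotomicExtension.zeta_spec p ℚ K).toInteger_isPrimitiveRoot

instance finiteResidue : Finite (𝓞 K ⧸ 𝔮) :=
  Ring.HasFiniteQuotients.finiteQuotient (NeZero.ne 𝔮)

noncomputable instance fintypeResidue : Fintype (𝓞 K ⧸ 𝔮) := Fintype.ofFinite _

theorem natCast_mem : (q : 𝓞 K) ∈ 𝔮 := by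
  have h1 : (q : ℤ) ∈ Ideal.span {(q : ℤ)} := Ideal.mem_span_singleton_self _
  rw [h𝔮.over, Ideal.mem_comap] at h1
  simpa using h1

theorem charPResidue : CharP (𝓞 K ⧸ 𝔮) q := by
  rw [CharP.charP_iff_prime_eq_zero hq.out]
  have := natCast_mem K q 𝔮
  rw [← Ideal.Quotient.eq_zero_iff_mem] at this
  simpa using this

/-- The residue degree `f = ord_p(q)`. -/
noncomputable def resDeg : ℕ := orderOf ((q : ℕ) : ZMod p)

include hK in
theorem card_residue (hqp : q ≠ p) : Fintype.card (𝓞 K ⧸ 𝔮) = q ^ resDeg p q := by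
  have hndvd : ¬ q ∣ p := by
    intro h
    exact hqp ((Nat.prime_dvd_prime_iff_eq hq.out hp.out).mp h)
  have h1 := Ideal.pow_inertiaDeg q 𝔮
  rw [IsCyclotomicExtension.Rat.inertiaDeg_eq_of_not_dvd q K 𝔮 hndvd, Ideal.absNorm_apply,
    Submodule.cardQuot_apply, Nat.card_eq_fintype_card] at h1
  exact h1.symm

theorem resDeg_pos (hqp : q ≠ p) : 0 < resDeg p q := by
  haveI : NeZero p := ⟨hp.out.ne_zero⟩
  apply orderOf_pos_iff.mpr
  have hcop : q.Coprime p := (Nat.coprime_primes hq.out hp.out).mpr hqp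
  exact (ZMod.unitOfCoprime q hcop).isUnit.isOfFinOrder

theorem dvd_pow_resDeg_sub_one : p ∣ q ^ resDeg p q - 1 := by
  have h1 : ((q : ℕ) : ZMod p) ^ resDeg p q = 1 := pow_orderOf_eq_one _
  have h2 : ((q ^ resDeg p q - 1 : ℕ) : ZMod p) = 0 := by
    rw [Nat.cast_sub (Nat.one_le_pow _ _ hq.out.pos)]
    push_cast
    rw [h1, sub_self]
  exact (ZMod.natCast_eq_zero_iff _ _).mp h2

include hK in
theorem mk_zetaInt_isPrimitiveRoot (hqp : q ≠ p) :
    IsPrimitiveRoot (Ideal.Quotient.mk 𝔮 (zetaInt p K)) p := by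
  haveI : NeZero p := ⟨hp.out.ne_zero⟩
  refine (zetaInt_isPrimitiveRoot p K).idealQuotient_mk ?_ ?_
  · rw [Ne, Ideal.absNorm_eq_one_iff]
    exact IsMaximal.ne_top inferInstance
  · rw [← Ideal.pow_inertiaDeg q 𝔮]
    exact Nat.Coprime.pow_left _ ((Nat.coprime_primes hq.out hp.out).mpr hqp)

end Setting

section ToWitt

variable (p : ℕ) [hp : Fact p.Prime] (K : Type*) [Field K] [NumberField K]
  [hK : IsCyclotomicExtension {p} ℚ K]
variable (q : ℕ) [hq : Fact q.Prime]
variable {F : Type*} [Field F] [Fintype F] [CharP F q] (π : 𝓞 K →+* F)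
  (hζF : IsPrimitiveRoot (π (zetaInt p K)) p)

/-- The Teichmüller lift of `ζ mod 𝔮`. -/
noncomputable def zetaWitt : WittVector q F := WittVector.teichmuller q (π (zetaInt p K))

include hζF in
theorem zetaWitt_pow : zetaWitt p K q π ^ p = 1 := by
  rw [zetaWitt, ← map_pow, hζF.pow_eq_one, map_one]

include hζF in
theorem zetaWitt_ne_one : zetaWitt p K q π ≠ 1 := by
  intro h
  have h1 := congrArg (WittVector.constantCoeff (p := q) (R := F)) h
  rw [zetaWitt, WittVector.constantCoeff_apply, WittVector.teichmuller_coeff_zero, map_one] at h1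
  exact hζF.ne_one hp.out.one_lt h1

include hζF in
theorem aeval_zetaWitt_cyclotomic :
    aeval (zetaWitt p K q π) (cyclotomic p ℤ) = 0 := by
  have h1 : aeval (zetaWitt p K q π) (cyclotomic p ℤ * (X - 1)) = 0 := by
    rw [cyclotomic_prime_mul_X_sub_one]
    simp [zetaWitt_pow p K q π hζF]
  rw [map_mul] at h1
  rcases mul_eq_zero.mp h1 with h | h
  · exact h
  · exfalso
    apply zetaWitt_ne_one p K q π hζF
    have : zetaWitt p K q π - 1 = 0 := by simpa using h
    exact sub_eq_zero.mp this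

theorem minpoly_zetaInt :
    haveI : NeZero p := ⟨hp.out.ne_zero⟩
    minpoly ℤ ((IsCyclotomicExtension.zeta_spec p ℚ K).integralPowerBasis).gen
      = cyclotomic p ℤ := by
  haveI : NeZero p := ⟨hp.out.ne_zero⟩
  rw [IsPrimitiveRoot.integralPowerBasis_gen, ← RingOfIntegers.minpoly_coe]
  exact (cyclotomic_eq_minpoly (IsCyclotomicExtension.zeta_spec p ℚ K) hp.out.pos).symm

/-- The lift `𝓞 K → 𝕎 F` of the reduction map. -/
noncomputable def toWitt : 𝓞 K →+* WittVector q F :=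
  haveI : NeZero p := ⟨hp.out.ne_zero⟩
  (((IsCyclotomicExtension.zeta_spec p ℚ K).integralPowerBasis).lift (zetaWitt p K q π)
    (by rw [minpoly_zetaInt]; exact aeval_zetaWitt_cyclotomic p K q π hζF)).toRingHom

theorem toWitt_zetaInt : toWitt p K q π hζF (zetaInt p K) = zetaWitt p K q π := by
  haveI : NeZero p := ⟨hp.out.ne_zero⟩
  have := ((IsCyclotomicExtension.zeta_spec p ℚ K).integralPowerBasis).lift_gen
    (zetaWitt p K q π) (by rw [minpoly_zetaInt]; exact aeval_zetaWitt_cyclotomic p K q π hζF)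
  have hgen := IsPrimitiveRoot.integralPowerBasis_gen (IsCyclotomicExtension.zeta_spec p ℚ K)
  rw [zetaInt, ← hgen]
  exact this

theorem constantCoeff_toWitt (x : 𝓞 K) :
    WittVector.constantCoeff (toWitt p K q π hζF x) = π x := by
  haveI : NeZero p := ⟨hp.out.ne_zero⟩
  have h : (WittVector.constantCoeff.comp (toWitt p K q π hζF)).toIntAlgHom = π.toIntAlgHom := by
    apply ((IsCyclotomicExtension.zeta_spec p ℚ K).integralPowerBasis).algHom_ext
    rw [IsPrimitiveRoot.integralPowerBasis_gen]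
    change WittVector.constantCoeff (toWitt p K q π hζF (zetaInt p K)) = π (zetaInt p K)
    rw [toWitt_zetaInt, zetaWitt, WittVector.constantCoeff_apply,
      WittVector.teichmuller_coeff_zero]
  exact congrArg (fun f => f x) h

theorem dvd_of_constantCoeff_eq_zero {y : WittVector q F}
    (hy : WittVector.constantCoeff y = 0) : (q : WittVector q F) ∣ y := by
  have h1 : ¬ IsUnit y := by
    intro h
    have := (WittVector.constantCoeff (p := q) (R := F)).isUnit_map h
    rw [hy] at this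
    exact not_isUnit_zero this
  have h2 : y ∈ IsLocalRing.maximalIdeal (WittVector q F) := (IsLocalRing.mem_maximalIdeal y).mpr h1
  rw [(WittVector.irreducible q).maximalIdeal_eq, Ideal.mem_span_singleton] at h2
  exact h2

/-- **Transfer (easy direction)**: `x ∈ 𝔮^k → q^k ∣ toWitt x`. -/
theorem pow_dvd_toWitt_of_mem (𝔮 : Ideal (𝓞 K)) (hker : ∀ x, x ∈ 𝔮 → π x = 0) {k : ℕ}
    {x : 𝓞 K} (hx : x ∈ 𝔮 ^ k) : (q : WittVector q F) ^ k ∣ toWitt p K q π hζF x := by
  have h1 : Ideal.map (toWitt p K q π hζF) 𝔮 ≤ Ideal.span {(q : WittVector q F)} := by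
    rw [Ideal.map_le_iff_le_comap]
    intro y hy
    rw [Ideal.mem_comap, Ideal.mem_span_singleton]
    apply dvd_of_constantCoeff_eq_zero
    rw [constantCoeff_toWitt]
    exact hker y hy
  have h2 : Ideal.map (toWitt p K q π hζF) (𝔮 ^ k) ≤ Ideal.span {(q : WittVector q F) ^ k} := by
    rw [Ideal.map_pow, ← Ideal.span_singleton_pow]
    exact Ideal.pow_right_mono h1 k
  exact Ideal.mem_span_singleton.mp (h2 (Ideal.mem_map_of_mem _ hx))

/-- Roots of unity of order `p ≠ q` in `𝕎 F` are determined by their residues. -/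
theorem eq_of_pow_eq_one_of_constantCoeff_eq (hqp : q ≠ p) {y₁ y₂ : WittVector q F}
    (h₁ : y₁ ^ p = 1) (h₂ : y₂ ^ p = 1)
    (h : WittVector.constantCoeff y₁ = WittVector.constantCoeff y₂) : y₁ = y₂ := by
  have hp1 : 1 ≤ p := hp.out.pos
  set y := y₁ * y₂ ^ (p - 1) with hy
  have hyp : y ^ p = 1 := by
    rw [hy, mul_pow, h₁, one_mul, ← pow_mul, mul_comm, pow_mul, h₂, one_pow]
  have hc2 : (WittVector.constantCoeff y₂ : F) ^ p = 1 := by
    rw [← map_pow, h₂, map_one]
  have hyc : WittVector.constantCoeff y = (1 : F) := by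
    rw [hy, map_mul, map_pow, h, ← pow_succ', Nat.sub_add_cancel hp1, hc2]
  -- `(y - 1) * ∑ y^i = 0`
  have hgeom : (y - 1) * ∑ i ∈ Finset.range p, y ^ i = 0 := by
    rw [mul_comm, geom_sum_mul, hyp, sub_self]
  have hsum : ∑ i ∈ Finset.range p, y ^ i ≠ 0 := by
    intro h0
    have := congrArg (WittVector.constantCoeff (p := q) (R := F)) h0
    rw [map_sum, map_zero] at this
    simp only [map_pow, hyc, one_pow, Finset.sum_const, Finset.card_range, nsmul_eq_mul,
      mul_one] at this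
    rw [CharP.cast_eq_zero_iff F q] at this
    exact hqp ((Nat.prime_dvd_prime_iff_eq hq.out hp.out).mp this)
  have hy1 : y = 1 := by
    rcases mul_eq_zero.mp hgeom with h0 | h0
    · exact sub_eq_zero.mp h0
    · exact absurd h0 hsum
  have h3 : y₂ * y₂ ^ (p - 1) = 1 := by
    rw [← pow_succ', Nat.sub_add_cancel hp1, h₂]
  have h4 : y₁ * y₂ ^ (p - 1) = y₂ * y₂ ^ (p - 1) := by rw [← hy, hy1, h3]
  have hne : y₂ ^ (p - 1) ≠ 0 := by
    intro h0
    rw [h0, mul_zero] at h3
    exact zero_ne_one h3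
  exact mul_right_cancel₀ hne h4

end ToWitt

section Character

variable (p : ℕ) [hp : Fact p.Prime] (K : Type*) [Field K] [NumberField K]
  [hK : IsCyclotomicExtension {p} ℚ K]
variable (q : ℕ) [hq : Fact q.Prime]
variable {F : Type*} [Field F] [Fintype F] [CharP F q] (π : 𝓞 K →+* F)
  (hζF : IsPrimitiveRoot (π (zetaInt p K)) p)

include hζF in
/-- Existence of the (inverse) `p`-th power residue character with values in `𝓞 K`. -/
theorem exists_residueChar (hpQ : p ∣ Fintype.card F - 1) :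
    ∃ ψ : MulChar F (𝓞 K), ψ ^ p = 1 ∧
      ∀ x : Fˣ, π (ψ x) = ((x⁻¹ : Fˣ) : F) ^ ((Fintype.card F - 1) / p) := by
  classical
  set M := (Fintype.card F - 1) / p with hM
  have hpM : p * M = Fintype.card F - 1 := Nat.mul_div_cancel' hpQ
  obtain ⟨g, hg⟩ := IsCyclic.exists_generator (α := Fˣ)
  have hordg : orderOf g = Fintype.card F - 1 := by
    rw [orderOf_eq_card_of_forall_mem_zpowers hg, Nat.card_eq_fintype_card, Fintype.card_units]
  -- the `p`-th root of unity `g^{-M}`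
  have hroot : (((g⁻¹ : Fˣ) : F) ^ M) ^ p = 1 := by
    rw [← pow_mul, mul_comm, hpM, ← Units.val_pow_eq_pow_val, inv_pow, ← hordg,
      pow_orderOf_eq_one, inv_one, Units.val_one]
  obtain ⟨i, -, hi⟩ := hζF.eq_pow_of_pow_eq_one hroot
  have hzu : IsUnit (zetaInt p K) := (zetaInt_isPrimitiveRoot p K).isUnit hp.out.ne_zero
  set u : (𝓞 K)ˣ := hzu.unit ^ i with hu
  have hup : u ^ p = 1 := by
    rw [hu, ← pow_mul, mul_comm, pow_mul]
    have : hzu.unit ^ p = 1 := by
      rw [← Units.val_inj, Units.val_pow_eq_pow_val, IsUnit.unit_spec, Units.val_one]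
      exact (zetaInt_isPrimitiveRoot p K).pow_eq_one
    rw [this, one_pow]
  have hdvd : orderOf u ∣ orderOf g := by
    rw [hordg, ← hpM]
    exact dvd_mul_of_dvd_left (orderOf_dvd_of_pow_eq_one hup) M
  let h : Fˣ →* (𝓞 K)ˣ := monoidHomOfForallMemZpowers hg hdvd
  have hhg : h g = u := monoidHomOfForallMemZpowers_apply_gen hg hdvd
  refine ⟨MulChar.ofUnitHom h, ?_, ?_⟩
  · rw [MulChar.eq_one_iff]
    intro x
    obtain ⟨k, rfl⟩ := Subgroup.mem_zpowers_iff.mp (hg x)
    rw [MulChar.pow_apply_coe, MulChar.ofUnitHom_coe, map_zpow, hhg, ← Units.val_pow_eq_pow_val,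
      ← zpow_natCast, ← zpow_mul, mul_comm, zpow_mul, zpow_natCast, hup, one_zpow, Units.val_one]
  · intro x
    obtain ⟨k, rfl⟩ := Subgroup.mem_zpowers_iff.mp (hg x)
    rw [MulChar.ofUnitHom_coe, map_zpow, hhg]
    -- both sides are `k`-th powers of the values at `g`
    have h1 : π ((u : 𝓞 K)) = ((g⁻¹ : Fˣ) : F) ^ M := by
      rw [hu, Units.val_pow_eq_pow_val, IsUnit.unit_spec, map_pow, hi]
    have h2 : ((Units.map (π : 𝓞 K →* F) u : Fˣ) : F) = (((g⁻¹) ^ M : Fˣ) : F) := by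
      rw [Units.coe_map, Units.val_pow_eq_pow_val]
      exact h1
    have h3 : Units.map (π : 𝓞 K →* F) u = (g⁻¹) ^ M := Units.ext h2
    have h4 : Units.map (π : 𝓞 K →* F) (u ^ k) = ((g ^ k)⁻¹) ^ M := by
      rw [map_zpow, h3, ← inv_zpow, ← zpow_natCast, ← zpow_natCast, ← zpow_mul, ← zpow_mul,
        mul_comm]
    have h5 := congrArg (fun z : Fˣ => (z : F)) h4
    simp only [Units.coe_map] at h5
    rw [← Units.val_pow_eq_pow_val]
    exact h5

end Character

section Bound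

variable (p : ℕ) [hp : Fact p.Prime] (K : Type*) [Field K] [NumberField K]
  [hK : IsCyclotomicExtension {p} ℚ K]
variable (q : ℕ) [hq : Fact q.Prime]
variable {F : Type*} [Field F] [Fintype F] [CharP F q] (π : 𝓞 K →+* F)
  (hζF : IsPrimitiveRoot (π (zetaInt p K)) p)
variable (hqp : q ≠ p) {f : ℕ} (hQ : Fintype.card F = q ^ f) (hpQ : p ∣ q ^ f - 1)
variable (ψ : MulChar F (𝓞 K)) (hψp : ψ ^ p = 1)
  (hψπ : ∀ x : Fˣ, π (ψ x) = ((x⁻¹ : Fˣ) : F) ^ ((q ^ f - 1) / p))

include hqp hQ hpQ hψp hψπ in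
/-- `toWitt ∘ ψ = ω^{-(Q-1)/p}`. -/
theorem ringHomComp_toWitt :
    ψ.ringHomComp (toWitt p K q π hζF) = (wittDatum q F).chi ((q ^ f - 1) / p) := by
  set M := (q ^ f - 1) / p with hM
  have hpM : p * M = q ^ f - 1 := Nat.mul_div_cancel' hpQ
  have hqf : 2 ≤ q ^ f := by
    have h1 : 1 ≤ f := by
      rcases Nat.eq_zero_or_pos f with h0 | h0
      · exfalso
        rw [h0, pow_zero] at hQ
        have := Fintype.one_lt_card (α := F)
        omega
      · exact h0
    calc 2 ≤ q := hq.out.two_le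
      _ = q ^ 1 := (pow_one q).symm
      _ ≤ q ^ f := Nat.pow_le_pow_right hq.out.pos h1
  have hM0 : M ≠ 0 := by
    rintro h0
    rw [h0, mul_zero] at hpM
    omega
  apply MulChar.ext
  intro a
  rw [MulChar.ringHomComp_apply, (wittDatum q F).chi_apply hM0]
  change toWitt p K q π hζF (ψ a) = (WittVector.teichmuller q ((a : F)⁻¹)) ^ M
  apply eq_of_pow_eq_one_of_constantCoeff_eq p q hqp
  · rw [← map_pow, ← MulChar.pow_apply_coe, hψp, MulChar.one_apply_coe, map_one]
  · rw [← pow_mul, mul_comm, hpM, ← map_pow, ← hQ, inv_pow,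
      FiniteField.pow_card_sub_one_eq_one (a : F) a.ne_zero, inv_one, map_one]
  · rw [constantCoeff_toWitt, hψπ a, map_pow, WittVector.constantCoeff_apply,
      WittVector.teichmuller_coeff_zero, Units.val_inv_eq_inv_val]

include hψp in
/-- A ring endomorphism with `ζ ↦ ζ^r` raises `ψ` to the `r`-th power. -/
theorem ringHomComp_of_map_zeta (s : 𝓞 K →+* 𝓞 K) {r : ℕ}
    (hs : s (zetaInt p K) = zetaInt p K ^ r) : ψ.ringHomComp s = ψ ^ r := by
  apply MulChar.ext
  intro a
  rw [MulChar.ringHomComp_apply, MulChar.pow_apply_coe]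
  have h1 : ψ a ^ p = 1 := by
    rw [← MulChar.pow_apply_coe, hψp, MulChar.one_apply_coe]
  obtain ⟨j, -, hj⟩ := (zetaInt_isPrimitiveRoot p K).eq_pow_of_pow_eq_one h1
  rw [← hj, map_pow, hs, ← pow_mul, ← pow_mul, mul_comm]

include hζF hqp hQ hpQ hψp hψπ in
/-- **Upper bound for the `𝔮`-adic valuation of the conjugates of the Jacobi sum.** -/
theorem le_carryCount_of_mem (hp2 : p ≠ 2) (𝔮 : Ideal (𝓞 K)) (hker : ∀ x, x ∈ 𝔮 → π x = 0)
    (s : 𝓞 K →+* 𝓞 K) {r : ℕ} (hr : 0 < r) (hr' : r < p)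
    (hs : s (zetaInt p K) = zetaInt p K ^ r) {k : ℕ}
    (hk : s (jacobiSum ψ ψ) ∈ 𝔮 ^ k) : k ≤ carryCount q p f r := by
  set M := (q ^ f - 1) / p with hM
  have hpM : p * M = q ^ f - 1 := Nat.mul_div_cancel' hpQ
  have hf : f ≠ 0 := by
    rintro rfl
    rw [pow_zero] at hQ
    have := Fintype.one_lt_card (α := F)
    omega
  have hqf : 2 ≤ q ^ f := by
    calc 2 ≤ q := hq.out.two_le
      _ = q ^ 1 := (pow_one q).symm
      _ ≤ q ^ f := Nat.pow_le_pow_right hq.out.pos (Nat.pos_of_ne_zero hf)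
  have hM0 : 0 < M := by
    rcases Nat.eq_zero_or_pos M with h0 | h0
    · rw [h0, mul_zero] at hpM
      omega
    · exact h0
  have hp3 : 3 ≤ p := by
    have := hp.out.two_le
    omega
  have hQ3 : 3 < Fintype.card F := by
    have : p ≤ p * M := Nat.le_mul_of_pos_right p hM0
    omega
  have hcard : Fintype.card F - 1 = p * M := by rw [hQ, hpM]
  -- the image in the Witt vectors
  have h1 : s (jacobiSum ψ ψ) = jacobiSum (ψ ^ r) (ψ ^ r) := by
    rw [← jacobiSum_ringHomComp, ringHomComp_of_map_zeta p K ψ hψp s hs]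
  have h2 : toWitt p K q π hζF (jacobiSum (ψ ^ r) (ψ ^ r))
      = jacobiSum ((wittDatum q F).chi (r * M)) ((wittDatum q F).chi (r * M)) := by
    rw [← jacobiSum_ringHomComp, ← MulChar.ringHomComp_pow,
      ringHomComp_toWitt p K q π hζF hqp hQ hpQ ψ hψp hψπ, ← (wittDatum q F).chi_mul]
  have hdvd := pow_dvd_toWitt_of_mem p K q π hζF 𝔮 hker hk
  rw [h1, h2] at hdvd
  have hrM0 : 0 < r * M := Nat.mul_pos hr hM0
  have hrM1 : r * M < Fintype.card F - 1 := by
    rw [hcard]
    exact Nat.mul_lt_mul_of_pos_right hr' hM0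
  have hrM2 : r * M + r * M ≠ Fintype.card F - 1 := by
    rw [hcard]
    intro h
    have h3 : (2 * r) * M = p * M := by rw [← h]; ring
    have h4 : 2 * r = p := Nat.eq_of_mul_eq_mul_right hM0 h3
    have h5 : 2 ∣ p := ⟨r, h4.symm⟩
    exact hp2 ((Nat.prime_dvd_prime_iff_eq Nat.prime_two hp.out).mp h5).symm
  have hmain := witt_pow_dvd_jacobiSum q F hf hQ hQ3 hrM0 hrM1 hrM0 hrM1 hrM2 hdvd
  have hq1 : 1 < q := hq.out.one_lt
  have e1 := two_mul_frac_mod (q := q) (f := f) hp.out.pos hpQ r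
  have e2 := two_mul_digitSum_frac hq1 hp.out.pos hpQ hr'
  rw [hQ] at hmain
  rw [← hM] at e1 e2
  rw [e1] at hmain
  have h6 : (q - 1) * k ≤ (q - 1) * carryCount q p f r := by omega
  exact Nat.le_of_mul_le_mul_left h6 (by omega)

end Bound

end Fermat.Agent.CFT.Stickelberger
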