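import Mathlib
import Fermat.Prelude.Def_Stickelberger_Basic

/-!
# S14 preparation, slice S14c (algebraic half, part 1): the eigenvalue of the Stickelberger element

Pure algebra on the prelude's `Stickelberger` vocabulary.  For an odd prime `p` and a
representation `ρ : (ZMod p)ˣ →* End A` of `(ℤ/p)ˣ` on an `𝔽_p`-vector space:

* `two_mul_eigenvalueScalar` : `2 * ∑_{0 < c < p/2} c = ((p-1)/2) * ((p-1)/2 + 1)`;
* `eigenvalueScalar_ne_zero` : the eigenvalue scalar is a unit modulo `p`;
* `stickelbergerEnd_apply_of_isOmegaEigenvector` : on an `ω^{p-2}`-eigenvector `a` the Stickelberger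
  endomorphism `∑_c ρ(c)⁻¹` acts as the scalar `∑_c c`;
* `eq_zero_of_isOmegaEigenvector` : if the Stickelberger endomorphism kills `A`, then `A` has no
  non-zero `ω^{p-2}`-eigenvector.
-/

set_option autoImplicit false

namespace Fermat.Agent.CFT.Stickelberger.Eigen

open _root_.Stickelberger

/-- For odd `p` the exponent set is `{1, …, (p-1)/2}`. -/
theorem exponentSet_eq_Icc {p : ℕ} (hp : Odd p) : exponentSet p = Finset.Icc 1 ((p - 1) / 2) := by
  ext c
  rw [mem_exponentSet, Finset.mem_Icc]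
  obtain ⟨m, rfl⟩ := hp
  have : (2 * m + 1 - 1) / 2 = m := by omega
  rw [this]
  omega

theorem two_mul_eigenvalueScalar {p : ℕ} (hp : Odd p) :
    2 * eigenvalueScalar p = ((p - 1) / 2) * ((p - 1) / 2 + 1) := by
  rw [eigenvalueScalar, exponentSet_eq_Icc hp]
  set m := (p - 1) / 2
  have h : ∑ c ∈ Finset.Icc 1 m, c = ∑ c ∈ Finset.range (m + 1), c := by
    refine Finset.sum_subset (fun c hc => ?_) (fun c hc hc' => ?_)
    · rw [Finset.mem_Icc] at hc
      rw [Finset.mem_range]
      omega
    · rw [Finset.mem_range] at hc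
      rw [Finset.mem_Icc] at hc'
      omega
  rw [h, mul_comm, Finset.sum_range_id_mul_two]
  simp [mul_comm]

/-- The eigenvalue scalar `∑_{0 < c < p/2} c = (p² - 1)/8` is a unit modulo the odd prime `p`. -/
theorem eigenvalueScalar_ne_zero {p : ℕ} [hp : Fact p.Prime] (h2 : p ≠ 2) :
    (eigenvalueScalar p : ZMod p) ≠ 0 := by
  have hodd : Odd p := hp.out.odd_of_ne_two h2
  intro h0
  rw [ZMod.natCast_eq_zero_iff] at h0
  have h1 : p ∣ ((p - 1) / 2) * ((p - 1) / 2 + 1) := by
    rw [← two_mul_eigenvalueScalar hodd]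
    exact Dvd.dvd.mul_left h0 2
  have hp3 : 3 ≤ p := by
    have := hp.out.two_le
    omega
  rcases (Nat.Prime.dvd_mul hp.out).1 h1 with h | h
  · have := Nat.le_of_dvd (by omega) h
    omega
  · have := Nat.le_of_dvd (by omega) h
    omega

variable {p : ℕ} [hp : Fact p.Prime] {A : Type*} [AddCommGroup A] [Module (ZMod p) A]

/-- For `0 < c < p` the unit `expUnit p c` is the class of `c`. -/
theorem coe_expUnit {c : ℕ} (hc : c ∈ exponentSet p) : ((expUnit p c : (ZMod p)ˣ) : ZMod p) = c := by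
  rw [mem_exponentSet] at hc
  have hcop : Nat.Coprime c p := by
    rw [Nat.coprime_comm, Nat.Prime.coprime_iff_not_dvd hp.out]
    intro h
    have := Nat.le_of_dvd hc.1 h
    omega
  rw [expUnit, dif_pos hcop, ZMod.coe_unitOfCoprime]

/-- On an `ω^{p-2}`-eigenvector the Stickelberger endomorphism is multiplication by
`∑_{0 < c < p/2} c`. -/
theorem stickelbergerEnd_apply_of_isOmegaEigenvector (ρ : (ZMod p)ˣ →* Module.End (ZMod p) A)
    {a : A} (ha : IsOmegaEigenvector ρ (p - 2) a) :
    stickelbergerEnd ρ a = (eigenvalueScalar p : ZMod p) • a := by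
  rw [stickelbergerEnd, LinearMap.sum_apply, eigenvalueScalar, Nat.cast_sum, Finset.sum_smul]
  refine Finset.sum_congr rfl (fun c hc => ?_)
  rw [ha, Units.val_inv_eq_inv_val, coe_expUnit hc]
  congr 1
  have hc0 : (c : ZMod p) ≠ 0 := by
    rw [← coe_expUnit hc]
    exact Units.ne_zero _
  have h2 : 2 ≤ p := hp.out.two_le
  have hfl : (c : ZMod p) ^ (p - 1) = 1 := ZMod.pow_card_sub_one_eq_one hc0
  have e : p - 1 = (p - 2) + 1 := by omega
  rw [e, pow_succ] at hfl
  rw [inv_pow]
  exact inv_eq_of_mul_eq_one_right hfl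

/-- **No `ω^{p-2}`-eigenvector**: if the Stickelberger endomorphism annihilates `A`, every
`ω^{p-2}`-eigenvector of `A` vanishes (`p` an odd prime). -/
theorem eq_zero_of_isOmegaEigenvector (h2 : p ≠ 2) (ρ : (ZMod p)ˣ →* Module.End (ZMod p) A)
    (hann : StickelbergerAnnihilates ρ) {a : A} (ha : IsOmegaEigenvector ρ (p - 2) a) : a = 0 := by
  have h := stickelbergerEnd_apply_of_isOmegaEigenvector ρ ha
  rw [hann a] at h
  exact (smul_eq_zero.1 h.symm).resolve_left (eigenvalueScalar_ne_zero h2)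

end Fermat.Agent.CFT.Stickelberger.Eigen
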