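import Mathlib
import Fermat.Prelude.Def_ClassGroup_GaloisAction
import Fermat.Prelude.Def_Stickelberger_Basic

/-!
# S14 preparation, slice S14c (algebraic half, part 2): reduction of Stickelberger's theorem to
prime ideals not above `p`

`K = ℚ(ζ_p)`, `p` prime.  In the prelude's vocabulary (`JacobiSumStickelberger.clGalAction`,
`Stickelberger.StickelbergerAnnihilates`) we show that the Stickelberger element
`θ = ∑_{0 < c < p/2} σ_c⁻¹` annihilates `Cl(𝓞 K)/p` as soon as, for every non-zero prime ideal `Q`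
of `𝓞 K` not containing `p`, the ideal `θ Q = ∏_c σ_c⁻¹(Q)` is principal
(`stickelbergerAnnihilates_of_prime`).

* `coe_clRingAction`, `clRingAction_apply_of_pow_eq_one` : the ring automorphism
  `clRingAction p K d` of `𝓞 K` is the restriction of `σ_d : ζ ↦ ζ ^ d`;
* `stickIdeal p K I = ∏_{0 < c < p/2} σ_c⁻¹(I)`, multiplicative in `I`;
* `stickelbergerEnd_clProj_mk0` : `θ [I] = [stickIdeal I]` in `Cl/p`;
* `isPrincipal_stickIdeal_of_mem` : the prime above `p` is `(ζ - 1)`, so `θ Q` is principal for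
  `Q ∣ p`;
* `isPrincipal_stickIdeal` : induction over the prime factorisation.
-/

set_option autoImplicit false

open scoped NumberField nonZeroDivisors

namespace Fermat.Agent.CFT.Stickelberger.Reduction

open JacobiSumStickelberger _root_.Stickelberger

variable (p : ℕ) [hp : Fact p.Prime] (K : Type*) [Field K] [NumberField K]
  [hK : IsCyclotomicExtension {p} ℚ K]

/-! ### The ring automorphisms `σ_d` of `𝓞 K` -/

/-- `clRingAction p K d` is the restriction to `𝓞 K` of the Galois automorphism `σ_d`. -/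
theorem coe_clRingAction (d : (ZMod p)ˣ) (x : 𝓞 K) :
    ((clRingAction p K d x : 𝓞 K) : K) = (cycloGalEquiv p K).symm d (x : K) := by
  show algebraMap (𝓞 K) K (galRestrict ℤ ℚ K (𝓞 K) ((cycloGalEquiv p K).symm d) x) = _
  rw [algebraMap_galRestrict_apply]

/-- `σ_d` raises every `p`-th root of unity to the power `d`. -/
theorem clRingAction_apply_of_pow_eq_one (d : (ZMod p)ˣ) {x : 𝓞 K} (hx : x ^ p = 1) :
    clRingAction p K d x = x ^ (d : ZMod p).val := by
  apply NumberField.RingOfIntegers.ext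
  rw [coe_clRingAction]
  have hx' : (x : K) ^ p = 1 := by
    have := congrArg (algebraMap (𝓞 K) K) hx
    simpa using this
  have h := IsCyclotomicExtension.Rat.galEquivZMod_apply_of_pow_eq p K
    ((cycloGalEquiv p K).symm d) hx'
  rw [h]
  have e : IsCyclotomicExtension.Rat.galEquivZMod p K ((cycloGalEquiv p K).symm d) = d :=
    (cycloGalEquiv p K).apply_symm_apply d
  rw [e]
  simp

/-- `σ_c⁻¹` is the inverse of `ζ ↦ ζ ^ c` on `p`-th roots of unity (`0 < c < p/2`). -/
theorem clRingAction_expUnit_inv_pow {c : ℕ} (hc : c ∈ exponentSet p) {x : 𝓞 K}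
    (hx : x ^ p = 1) : (clRingAction p K (expUnit p c)⁻¹ x) ^ c = x := by
  rw [clRingAction_apply_of_pow_eq_one p K _ hx, ← pow_mul]
  rw [mem_exponentSet] at hc
  have hcop : Nat.Coprime c p := by
    rw [Nat.coprime_comm, Nat.Prime.coprime_iff_not_dvd hp.out]
    intro h
    have := Nat.le_of_dvd hc.1 h
    omega
  have hcu : ((expUnit p c : (ZMod p)ˣ) : ZMod p) = c := by
    rw [expUnit, dif_pos hcop, ZMod.coe_unitOfCoprime]
  set a := (((expUnit p c)⁻¹ : (ZMod p)ˣ) : ZMod p).val * c with ha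
  have h1 : (a : ZMod p) = 1 := by
    rw [ha, Nat.cast_mul, ZMod.natCast_zmod_val, ← hcu, ← Units.val_mul, inv_mul_cancel,
      Units.val_one]
  have h2 : a % p = 1 := by
    have := (ZMod.natCast_eq_natCast_iff' a 1 p).mp (by rw [h1, Nat.cast_one])
    rw [this, Nat.mod_eq_of_lt hp.out.one_lt]
  rw [← Nat.div_add_mod a p, h2, pow_add, pow_mul, hx, one_pow, one_mul, pow_one]

/-! ### The Stickelberger operator on ideals -/

/-- `θ I = ∏_{0 < c < p/2} σ_c⁻¹(I)`. -/
noncomputable def stickIdeal (I : Ideal (𝓞 K)) : Ideal (𝓞 K) :=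
  ∏ c ∈ exponentSet p, I.map ((clRingAction p K (expUnit p c)⁻¹ : 𝓞 K ≃+* 𝓞 K) : 𝓞 K →+* 𝓞 K)

theorem stickIdeal_mul (I J : Ideal (𝓞 K)) :
    stickIdeal p K (I * J) = stickIdeal p K I * stickIdeal p K J := by
  simp only [stickIdeal, Ideal.map_mul, Finset.prod_mul_distrib]

theorem stickIdeal_top : stickIdeal p K ⊤ = ⊤ := by
  rw [stickIdeal, ← Ideal.one_eq_top]
  refine Finset.prod_eq_one (fun c _ => ?_)
  rw [Ideal.one_eq_top]
  exact Ideal.map_top _

theorem stickIdeal_span_singleton (x : 𝓞 K) :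
    stickIdeal p K (Ideal.span {x}) =
      Ideal.span {∏ c ∈ exponentSet p, clRingAction p K (expUnit p c)⁻¹ x} := by
  rw [stickIdeal, ← Ideal.prod_span_singleton]
  refine Finset.prod_congr rfl (fun c _ => ?_)
  rw [Ideal.map_span, Set.image_singleton]
  rfl

theorem stickIdeal_ne_bot {I : Ideal (𝓞 K)} (hI : I ≠ ⊥) : stickIdeal p K I ≠ ⊥ := by
  rw [stickIdeal, ← Ideal.zero_eq_bot, Finset.prod_ne_zero_iff]
  intro c _ h0
  rw [Ideal.zero_eq_bot] at h0
  exact hI ((Ideal.map_eq_bot_iff_of_injective (RingEquiv.injective _)).mp h0)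

/-- `θ` of a principal ideal is principal. -/
theorem isPrincipal_stickIdeal_of_isPrincipal {I : Ideal (𝓞 K)} (hI : I.IsPrincipal) :
    (stickIdeal p K I).IsPrincipal := by
  obtain ⟨x, rfl⟩ := hI
  rw [Ideal.submodule_span_eq, stickIdeal_span_singleton]
  exact ⟨⟨_, rfl⟩⟩

/-! ### The action on the class group -/

theorem mem_nonZeroDivisors_stickIdeal (P : (Ideal (𝓞 K))⁰) :
    stickIdeal p K (P : Ideal (𝓞 K)) ∈ (Ideal (𝓞 K))⁰ :=
  mem_nonZeroDivisors_iff_ne_zero.mpr
    (stickIdeal_ne_bot p K (mem_nonZeroDivisors_iff_ne_zero.mp P.2))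

/-- `θ [I] = [θ I]` in `Cl(𝓞 K)/p`. -/
theorem stickelbergerEnd_clProj_mk0 (P : (Ideal (𝓞 K))⁰) :
    stickelbergerEnd (clGalAction p K) (clProj p (𝓞 K) (Additive.ofMul (ClassGroup.mk0 P))) =
      clProj p (𝓞 K) (Additive.ofMul (ClassGroup.mk0
        ⟨stickIdeal p K P, mem_nonZeroDivisors_stickIdeal p K P⟩)) := by
  rw [stickelbergerEnd, LinearMap.sum_apply]
  simp only [clGalAction_clProj_mk0]
  rw [← map_sum, ← ofMul_prod, ← map_prod]
  congr 3
  apply Subtype.ext
  rw [Submonoid.coe_finsetProd]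
  rfl

/-- If `θ I` is principal then `θ` kills the class of `I` in `Cl(𝓞 K)/p`. -/
theorem stickelbergerEnd_clProj_mk0_eq_zero (P : (Ideal (𝓞 K))⁰)
    (h : (stickIdeal p K (P : Ideal (𝓞 K))).IsPrincipal) :
    stickelbergerEnd (clGalAction p K) (clProj p (𝓞 K) (Additive.ofMul (ClassGroup.mk0 P))) = 0 := by
  rw [stickelbergerEnd_clProj_mk0, (ClassGroup.mk0_eq_one_iff _).mpr h, ofMul_one, map_zero]

/-- **Reduction to ideals**: if `θ I` is principal for every non-zero ideal `I`, the Stickelberger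
element annihilates `Cl(𝓞 K)/p`. -/
theorem stickelbergerAnnihilates_of_ideal
    (h : ∀ I : Ideal (𝓞 K), I ≠ ⊥ → (stickIdeal p K I).IsPrincipal) :
    StickelbergerAnnihilates (clGalAction p K) := by
  intro a
  obtain ⟨C, rfl⟩ := clProj_surjective p (𝓞 K) a
  obtain ⟨P, hP⟩ := ClassGroup.mk0_surjective (Additive.toMul C)
  have : C = Additive.ofMul (ClassGroup.mk0 P) := by rw [hP]; rfl
  rw [this]
  exact stickelbergerEnd_clProj_mk0_eq_zero p K P (h _ (mem_nonZeroDivisors_iff_ne_zero.mp P.2))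

/-! ### Reduction to prime ideals -/

/-- **Reduction to primes**: if `θ Q` is principal for every non-zero prime `Q`, then `θ I` is
principal for every non-zero ideal `I`. -/
theorem isPrincipal_stickIdeal
    (h : ∀ Q : Ideal (𝓞 K), Q.IsPrime → Q ≠ ⊥ → (stickIdeal p K Q).IsPrincipal)
    (I : Ideal (𝓞 K)) (hI : I ≠ ⊥) : (stickIdeal p K I).IsPrincipal := by
  revert hI
  refine UniqueFactorizationMonoid.induction_on_prime I (fun h0 => absurd rfl h0) ?_ ?_
  · intro J hJ _
    rw [Ideal.isUnit_iff] at hJ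
    rw [hJ, stickIdeal_top]
    exact ⟨⟨1, by simp⟩⟩
  · intro J Q hJ0 hQ ih _
    have hQ0 : Q ≠ ⊥ := hQ.ne_zero
    have hQp : Q.IsPrime := (Ideal.prime_iff_isPrime hQ0).mp hQ
    rw [stickIdeal_mul]
    have h1 := h Q hQp hQ0
    have h2 := ih hJ0
    obtain ⟨x, hx⟩ := h1
    obtain ⟨y, hy⟩ := h2
    rw [hx, hy, Ideal.submodule_span_eq, Ideal.submodule_span_eq, Ideal.span_singleton_mul_span_singleton]
    exact ⟨⟨_, rfl⟩⟩

/-! ### The prime above `p` -/

/-- A prime ideal of `𝓞 K` containing `p` is `(ζ - 1)`, hence principal. -/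
theorem isPrincipal_of_mem {Q : Ideal (𝓞 K)} (hQ : Q.IsPrime) (hpQ : (p : 𝓞 K) ∈ Q) :
    Q.IsPrincipal := by
  have hζ := IsCyclotomicExtension.zeta_spec p ℚ K
  have hass := IsCyclotomicExtension.Rat.associated_zeta_sub_one_pow_prime p hζ
  have h1 : (hζ.toInteger - 1) ^ (p - 1) ∈ Q := by
    obtain ⟨u, hu⟩ := hass.symm
    rw [← hu]
    exact Q.mul_mem_right _ hpQ
  have h2 : hζ.toInteger - 1 ∈ Q := hQ.mem_of_pow_mem _ h1
  have hle : Ideal.span {hζ.toInteger - 1} ≤ Q := (Ideal.span_singleton_le_iff_mem _).mpr h2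
  have hmax : (Ideal.span {hζ.toInteger - 1}).IsMaximal :=
    (IsCyclotomicExtension.Rat.isPrime_span_zeta_sub_one' p hζ).isMaximal
      (by
        rw [Ne, Ideal.span_singleton_eq_bot]
        exact (hζ.zeta_sub_one_prime').ne_zero)
  rw [← hmax.eq_of_le hQ.ne_top hle]
  exact ⟨⟨_, rfl⟩⟩

/-- **Stickelberger's theorem, reduced to the primes not above `p`.**  If for every non-zero prime
ideal `Q` of `𝓞 K` not containing `p` the ideal `∏_{0 < c < p/2} σ_c⁻¹(Q)` is principal, then the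
Stickelberger element annihilates `Cl(𝓞 K)/p` (prelude form). -/
theorem stickelbergerAnnihilates_of_prime
    (h : ∀ Q : Ideal (𝓞 K), Q.IsPrime → Q ≠ ⊥ → (p : 𝓞 K) ∉ Q → (stickIdeal p K Q).IsPrincipal) :
    StickelbergerAnnihilates (clGalAction p K) := by
  refine stickelbergerAnnihilates_of_ideal p K (isPrincipal_stickIdeal p K (fun Q hQ hQ0 => ?_))
  by_cases hpQ : (p : 𝓞 K) ∈ Q
  · exact isPrincipal_stickIdeal_of_isPrincipal p K (isPrincipal_of_mem p K hQ hpQ)
  · exact h Q hQ hQ0 hpQ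

end Fermat.Agent.CFT.Stickelberger.Reduction
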