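import Mathlib
import Fermat.Agent.CFT.Stickelberger.Eigen
import Fermat.Agent.CFT.Stickelberger.Reduction

/-!
# S14 preparation, slice S14c (algebraic half, part 3): from valuations to the ideal equation

`K = ℚ(ζ_p)`, `Q` a prime of `𝓞 K` above a rational prime `q ≠ p`, `u = [q] ∈ (ℤ/p)ˣ`,
`f = orderOf u`.  If `J ∈ 𝓞 K` divides a power of `q` and, for every `d ∈ (ℤ/p)ˣ`, the exact power
of `Q` dividing `σ_d J` is `#{i < f | 0 < 2 · (d qⁱ mod p) < p}`, then
`(J) = ∏_{0 < c < p/2} σ_c⁻¹(Q) = stickIdeal p K Q` (`span_eq_stickIdeal_of_valuations`), so that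
`stickIdeal p K Q` is principal: this is the hypothesis of
`Reduction.stickelbergerAnnihilates_of_prime`.
-/

set_option autoImplicit false

open scoped NumberField nonZeroDivisors Pointwise

namespace Fermat.Agent.CFT.Stickelberger.Glue

open JacobiSumStickelberger _root_.Stickelberger Fermat.Agent.CFT.Stickelberger.Reduction
open UniqueFactorizationMonoid

variable (p : ℕ) [hp : Fact p.Prime] (K : Type*) [Field K] [NumberField K]
  [hK : IsCyclotomicExtension {p} ℚ K]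

/-! ### The Galois action on ideals in the prelude's vocabulary -/

theorem clRingAction_apply_eq_smul (d : (ZMod p)ˣ) (x : 𝓞 K) :
    clRingAction p K d x = ((cycloGalEquiv p K).symm d) • x := by
  apply NumberField.RingOfIntegers.ext
  rw [coe_clRingAction]
  rfl

theorem map_clRingAction_eq_smul (d : (ZMod p)ˣ) (I : Ideal (𝓞 K)) :
    I.map ((clRingAction p K d : 𝓞 K ≃+* 𝓞 K) : 𝓞 K →+* 𝓞 K) = ((cycloGalEquiv p K).symm d) • I := by
  rw [Ideal.pointwise_smul_def]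
  congr 1
  ext x
  exact congrArg _ (clRingAction_apply_eq_smul p K d x)

theorem clRingAction_inv_apply (d : (ZMod p)ˣ) (x : 𝓞 K) :
    clRingAction p K d⁻¹ (clRingAction p K d x) = x := by
  show (clRingAction p K d⁻¹ * clRingAction p K d) x = x
  rw [← map_mul, inv_mul_cancel, map_one]
  rfl

theorem clRingAction_apply_inv (d : (ZMod p)ˣ) (x : 𝓞 K) :
    clRingAction p K d (clRingAction p K d⁻¹ x) = x := by
  show (clRingAction p K d * clRingAction p K d⁻¹) x = x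
  rw [← map_mul, mul_inv_cancel, map_one]
  rfl

/-- `x ∈ σ_d⁻¹(I) ↔ σ_d x ∈ I`. -/
theorem mem_map_clRingAction_inv_iff (d : (ZMod p)ˣ) (I : Ideal (𝓞 K)) (x : 𝓞 K) :
    x ∈ I.map ((clRingAction p K d⁻¹ : 𝓞 K ≃+* 𝓞 K) : 𝓞 K →+* 𝓞 K) ↔ clRingAction p K d x ∈ I := by
  constructor
  · intro h
    obtain ⟨y, hy, rfl⟩ := (Ideal.mem_map_of_equiv (clRingAction p K d⁻¹) x).mp h
    rwa [clRingAction_apply_inv]
  · intro h
    refine (Ideal.mem_map_of_equiv (clRingAction p K d⁻¹) x).mpr ⟨_, h, ?_⟩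
    exact clRingAction_inv_apply p K d x

theorem isPrime_map_clRingAction (d : (ZMod p)ˣ) {Q : Ideal (𝓞 K)} (hQ : Q.IsPrime) :
    (Q.map ((clRingAction p K d : 𝓞 K ≃+* 𝓞 K) : 𝓞 K →+* 𝓞 K)).IsPrime :=
  Ideal.map_isPrime_of_equiv (clRingAction p K d)

theorem map_clRingAction_ne_bot (d : (ZMod p)ˣ) {Q : Ideal (𝓞 K)} (hQ : Q ≠ ⊥) :
    Q.map ((clRingAction p K d : 𝓞 K ≃+* 𝓞 K) : 𝓞 K →+* 𝓞 K) ≠ ⊥ := fun h0 =>
  hQ ((Ideal.map_eq_bot_iff_of_injective (RingEquiv.injective _)).mp h0)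

/-- Transitivity: two primes of `𝓞 K` above the same rational prime are conjugate. -/
theorem exists_map_clRingAction_eq {Q Q' : Ideal (𝓞 K)} (hQ : Q.IsPrime) (hQ' : Q'.IsPrime)
    (h : Q.under ℤ = Q'.under ℤ) :
    ∃ d : (ZMod p)ˣ, Q' = Q.map ((clRingAction p K d⁻¹ : 𝓞 K ≃+* 𝓞 K) : 𝓞 K →+* 𝓞 K) := by
  have : IsGalois ℚ K := IsCyclotomicExtension.isGalois {p} ℚ K
  obtain ⟨g, hg⟩ := Algebra.IsInvariant.exists_smul_of_under_eq ℤ (𝓞 K) Gal(K/ℚ) Q Q' h
  refine ⟨(cycloGalEquiv p K g)⁻¹, ?_⟩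
  rw [inv_inv, map_clRingAction_eq_smul, MulEquiv.symm_apply_apply]
  exact hg

/-! ### Comparing prime factorisations -/

/-- `σ_d⁻¹(Q)`, the conjugate of `Q` indexed by `d`. -/
noncomputable abbrev conj (Q : Ideal (𝓞 K)) (d : (ZMod p)ˣ) : Ideal (𝓞 K) :=
  Q.map ((clRingAction p K d⁻¹ : 𝓞 K ≃+* 𝓞 K) : 𝓞 K →+* 𝓞 K)

theorem stickIdeal_eq_prod_conj (Q : Ideal (𝓞 K)) :
    stickIdeal p K Q = ((exponentSet p).val.map (fun c => conj p K Q (expUnit p c))).prod := rfl

theorem mem_conj_pow_iff (Q : Ideal (𝓞 K)) (d : (ZMod p)ˣ) (n : ℕ) (x : 𝓞 K) :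
    x ∈ conj p K Q d ^ n ↔ clRingAction p K d x ∈ Q ^ n := by
  rw [conj, ← Ideal.map_pow, mem_map_clRingAction_inv_iff]

/-- **Abstract glue.**  If only primes above `Q ∩ ℤ` contain `J` and the exact power of `Q` dividing
`σ_d J` is the number of `c ∈ (0, p/2)` with `σ_c⁻¹ Q = σ_d⁻¹ Q`, for every `d`, then
`(J) = ∏_{0 < c < p/2} σ_c⁻¹ Q`. -/
theorem span_eq_stickIdeal {Q : Ideal (𝓞 K)} (hQ : Q.IsPrime) (hQ0 : Q ≠ ⊥) {J : 𝓞 K}
    (hJ : ∀ Q' : Ideal (𝓞 K), Q'.IsPrime → J ∈ Q' → Q.under ℤ = Q'.under ℤ)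
    (n : (ZMod p)ˣ → ℕ)
    (hn : ∀ d, n d = ((exponentSet p).filter
      (fun c => conj p K Q (expUnit p c) = conj p K Q d)).card)
    (hle : ∀ d, clRingAction p K d J ∈ Q ^ n d)
    (hlt : ∀ d, clRingAction p K d J ∉ Q ^ (n d + 1)) :
    Ideal.span {J} = stickIdeal p K Q := by
  classical
  have hJ0 : J ≠ 0 := by
    rintro rfl
    exact hlt 1 (by rw [map_zero]; exact Ideal.zero_mem _)
  have hI0 : Ideal.span {J} ≠ ⊥ := by
    rwa [Ne, Ideal.span_singleton_eq_bot]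
  have hS0 : stickIdeal p K Q ≠ ⊥ := stickIdeal_ne_bot p K hQ0
  have hprime : ∀ d, Prime (conj p K Q d) := fun d =>
    Ideal.prime_of_isPrime (map_clRingAction_ne_bot p K _ hQ0) (isPrime_map_clRingAction p K _ hQ)
  -- the factorisation of the right-hand side
  have hnfS : normalizedFactors (stickIdeal p K Q) =
      (exponentSet p).val.map (fun c => conj p K Q (expUnit p c)) := by
    rw [stickIdeal_eq_prod_conj]
    apply normalizedFactors_prod_of_prime
    intro P hP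
    obtain ⟨c, _, rfl⟩ := Multiset.mem_map.mp hP
    exact hprime _
  have hcountS : ∀ P : Ideal (𝓞 K), Multiset.count P (normalizedFactors (stickIdeal p K Q)) =
      ((exponentSet p).filter (fun c => conj p K Q (expUnit p c) = P)).card := by
    intro P
    rw [hnfS, Multiset.count_map, Finset.card_def, Finset.filter_val]
    congr 1
    refine Multiset.filter_congr (fun c _ => ?_)
    exact eq_comm
  suffices h : normalizedFactors (Ideal.span {J}) = normalizedFactors (stickIdeal p K Q) by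
    rw [← Ideal.prod_normalizedFactors_eq_self hI0, h, Ideal.prod_normalizedFactors_eq_self hS0]
  rw [Multiset.ext]
  intro P
  by_cases hP : ∃ d, P = conj p K Q d
  · obtain ⟨d, rfl⟩ := hP
    rw [hcountS, ← hn d]
    have : (conj p K Q d).IsPrime := isPrime_map_clRingAction p K _ hQ
    refine Ideal.count_normalizedFactors_eq ?_ ?_
    · rw [Ideal.span_singleton_le_iff_mem, mem_conj_pow_iff]
      exact hle d
    · rw [Ideal.span_singleton_le_iff_mem, mem_conj_pow_iff]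
      exact hlt d
  · rw [hcountS]
    have h1 : Multiset.count P (normalizedFactors (Ideal.span {J})) = 0 := by
      rw [Multiset.count_eq_zero]
      intro hmem
      have hPprime : Prime P := prime_of_normalized_factor P hmem
      have hPP : P.IsPrime := Ideal.isPrime_of_prime hPprime
      have hle' : Ideal.span {J} ≤ P := Ideal.le_of_dvd (dvd_of_mem_normalizedFactors hmem)
      have hJP : J ∈ P := (Ideal.span_singleton_le_iff_mem _).mp hle'
      obtain ⟨d, hd⟩ := exists_map_clRingAction_eq p K hQ hPP (hJ P hPP hJP)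
      exact hP ⟨d, hd⟩
    rw [h1, eq_comm, Finset.card_eq_zero, Finset.filter_eq_empty_iff]
    intro c _ hc
    exact hP ⟨_, hc.symm⟩

/-! ### The decomposition group and the explicit count -/

/-- The number of `i < ord_p(q)` such that the representative of `d · qⁱ` in `(0, p)` is `< p/2`. -/
noncomputable def cnt (p q : ℕ) (d : (ZMod p)ˣ) : ℕ :=
  ((Finset.range (orderOf (q : ZMod p))).filter
    (fun i => ((d : ZMod p) * (q : ZMod p) ^ i).val ∈ exponentSet p)).card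

omit [NumberField K] hK hp in
theorem under_eq_span_of_mem {Q : Ideal (𝓞 K)} (hQ : Q.IsPrime) {q : ℕ} (hq : q.Prime)
    (hqQ : (q : 𝓞 K) ∈ Q) : Q.under ℤ = Ideal.span {(q : ℤ)} := by
  have hmax : (Ideal.span {(q : ℤ)}).IsMaximal :=
    PrincipalIdealRing.isMaximal_of_irreducible (Nat.prime_iff_prime_int.mp hq).irreducible
  have hle : Ideal.span {(q : ℤ)} ≤ Q.under ℤ := by
    rw [Ideal.span_singleton_le_iff_mem, Ideal.under_def, Ideal.mem_comap]
    simpa using hqQ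
  have hne : Q.under ℤ ≠ ⊤ := (Ideal.IsPrime.under ℤ Q).ne_top
  exact (hmax.eq_of_le hne hle).symm

/-- A unit of `ZMod p` is `expUnit` of its representative. -/
theorem expUnit_val (x : (ZMod p)ˣ) : expUnit p (x : ZMod p).val = x := by
  have hcop : Nat.Coprime (x : ZMod p).val p := ZMod.val_coe_unit_coprime x
  rw [expUnit, dif_pos hcop]
  apply Units.ext
  rw [ZMod.coe_unitOfCoprime, ZMod.natCast_zmod_val]

theorem val_expUnit {c : ℕ} (hc : c ∈ exponentSet p) : ((expUnit p c : (ZMod p)ˣ) : ZMod p).val = c := by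
  rw [Fermat.Agent.CFT.Stickelberger.Eigen.coe_expUnit hc]
  rw [mem_exponentSet] at hc
  exact ZMod.val_cast_of_lt (by omega)

/-- Pure counting: the elements of `(0, p/2)` in the coset `d · ⟨u⟩` are parametrised by the
exponents `i < orderOf u`. -/
theorem card_filter_coset_eq (u d : (ZMod p)ˣ) :
    ((exponentSet p).filter (fun c => (expUnit p c)⁻¹ * d ∈ Subgroup.zpowers u)).card =
      ((Finset.range (orderOf u)).filter
        (fun i => ((d * u ^ i : (ZMod p)ˣ) : ZMod p).val ∈ exponentSet p)).card := by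
  classical
  symm
  refine Finset.card_bij (fun i _ => ((d * u ^ i : (ZMod p)ˣ) : ZMod p).val) ?_ ?_ ?_
  · intro i hi
    rw [Finset.mem_filter] at hi ⊢
    refine ⟨hi.2, ?_⟩
    rw [expUnit_val]
    have : (d * u ^ i)⁻¹ * d = (u ^ i)⁻¹ := by
      rw [mul_inv_rev, mul_assoc, inv_mul_cancel, mul_one]
    rw [this]
    exact Subgroup.inv_mem _ (Subgroup.pow_mem _ (Subgroup.mem_zpowers u) i)
  · intro i hi j hj hij
    rw [Finset.mem_filter, Finset.mem_range] at hi hj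
    have h1 : (d * u ^ i : (ZMod p)ˣ) = d * u ^ j :=
      Units.ext (ZMod.val_injective p hij)
    have h2 : u ^ i = u ^ j := mul_left_cancel h1
    exact pow_injOn_Iio_orderOf hi.1 hj.1 h2
  · intro c hc
    rw [Finset.mem_filter] at hc
    have h1 : d⁻¹ * expUnit p c ∈ Subgroup.zpowers u := by
      have := Subgroup.inv_mem _ hc.2
      rwa [mul_inv_rev, inv_inv] at this
    rw [mem_zpowers_iff_mem_range_orderOf, Finset.mem_image] at h1
    obtain ⟨i, hi, hi'⟩ := h1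
    have h2 : d * u ^ i = expUnit p c := by
      rw [hi', mul_inv_cancel_left]
    refine ⟨i, ?_, ?_⟩
    · rw [Finset.mem_filter]
      refine ⟨hi, ?_⟩
      rw [h2, val_expUnit p hc.1]
      exact hc.1
    · show ((d * u ^ i : (ZMod p)ˣ) : ZMod p).val = c
      rw [h2, val_expUnit p hc.1]

theorem conj_eq_smul (Q : Ideal (𝓞 K)) (d : (ZMod p)ˣ) :
    conj p K Q d = ((cycloGalEquiv p K).symm d⁻¹) • Q :=
  map_clRingAction_eq_smul p K d⁻¹ Q

/-- Two conjugates `σ_a⁻¹ Q`, `σ_b⁻¹ Q` of a prime above `q ≠ p` coincide iff `a⁻¹ b ∈ ⟨q⟩`. -/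
theorem conj_eq_conj_iff {Q : Ideal (𝓞 K)} (hQ : Q.IsPrime) {q : ℕ} [hq : Fact q.Prime]
    (hcop : q.Coprime p) (hqQ : (q : 𝓞 K) ∈ Q) (a b : (ZMod p)ˣ) :
    conj p K Q a = conj p K Q b ↔ a⁻¹ * b ∈ Subgroup.zpowers (ZMod.unitOfCoprime q hcop) := by
  have hQ0 : Q ≠ ⊥ := by
    rintro rfl
    rw [Ideal.mem_bot] at hqQ
    have : (q : 𝓞 K) ≠ 0 := Nat.cast_ne_zero.mpr hq.out.ne_zero
    exact this hqQ
  have : Q.IsMaximal := hQ.isMaximal hQ0
  have : Q.LiesOver (Ideal.span {(q : ℤ)}) := ⟨(under_eq_span_of_mem K hQ hq.out hqQ).symm⟩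
  have hstab := IsCyclotomicExtension.Rat.galEquivZMod_stabilizer p K q Q hcop
  rw [conj_eq_smul, conj_eq_smul, ← inv_smul_eq_iff, smul_smul, ← map_inv, ← map_mul, inv_inv,
    ← hstab]
  rw [MulEquiv.mapSubgroup_apply, Subgroup.mem_map, mul_comm b]
  constructor
  · intro h
    exact ⟨(cycloGalEquiv p K).symm (a⁻¹ * b), MulAction.mem_stabilizer_iff.mpr h,
      (cycloGalEquiv p K).apply_symm_apply _⟩
  · rintro ⟨σ, hσ, hσ'⟩
    have e : (cycloGalEquiv p K).symm (a⁻¹ * b) = σ := by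
      rw [← hσ']
      exact (cycloGalEquiv p K).symm_apply_apply σ
    rw [e]
    exact MulAction.mem_stabilizer_iff.mp hσ

/-- The number of `c ∈ (0, p/2)` with `σ_c⁻¹ Q = σ_d⁻¹ Q` is `cnt p q d`. -/
theorem card_filter_conj_eq {Q : Ideal (𝓞 K)} (hQ : Q.IsPrime) {q : ℕ} [hq : Fact q.Prime]
    (hqp : q ≠ p) (hqQ : (q : 𝓞 K) ∈ Q) (d : (ZMod p)ˣ) :
    ((exponentSet p).filter (fun c => conj p K Q (expUnit p c) = conj p K Q d)).card =
      cnt p q d := by
  have hcop : q.Coprime p := (Nat.coprime_primes hq.out hp.out).mpr hqp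
  have h1 : (exponentSet p).filter (fun c => conj p K Q (expUnit p c) = conj p K Q d) =
      (exponentSet p).filter
        (fun c => (expUnit p c)⁻¹ * d ∈ Subgroup.zpowers (ZMod.unitOfCoprime q hcop)) := by
    refine Finset.filter_congr (fun c _ => ?_)
    exact conj_eq_conj_iff p K hQ hcop hqQ _ _
  rw [h1, card_filter_coset_eq, cnt]
  have hord : orderOf (ZMod.unitOfCoprime q hcop) = orderOf (q : ZMod p) := by
    rw [← orderOf_units, ZMod.coe_unitOfCoprime]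
  rw [hord]
  rfl

/-- **Glue theorem.**  `Q` a prime of `𝓞 K` above `q ≠ p`, `J ∈ 𝓞 K` a divisor of a power of `q`
such that for every `d ∈ (ℤ/p)ˣ` the exact power of `Q` dividing `σ_d J` is `cnt p q d`.  Then
`(J) = ∏_{0 < c < p/2} σ_c⁻¹(Q)`. -/
theorem span_eq_stickIdeal_of_valuations {Q : Ideal (𝓞 K)} (hQ : Q.IsPrime) {q : ℕ}
    [hq : Fact q.Prime] (hqp : q ≠ p) (hqQ : (q : 𝓞 K) ∈ Q) {J : 𝓞 K} {N : ℕ}
    (hJ : J ∣ (q : 𝓞 K) ^ N)
    (hle : ∀ d, clRingAction p K d J ∈ Q ^ cnt p q d)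
    (hlt : ∀ d, clRingAction p K d J ∉ Q ^ (cnt p q d + 1)) :
    Ideal.span {J} = stickIdeal p K Q := by
  have hQ0 : Q ≠ ⊥ := by
    rintro rfl
    rw [Ideal.mem_bot] at hqQ
    have : (q : 𝓞 K) ≠ 0 := Nat.cast_ne_zero.mpr hq.out.ne_zero
    exact this hqQ
  refine span_eq_stickIdeal p K hQ hQ0 ?_ (cnt p q)
    (fun d => (card_filter_conj_eq p K hQ hqp hqQ d).symm) hle hlt
  intro Q' hQ' hJQ'
  have h1 : (q : 𝓞 K) ^ N ∈ Q' := Ideal.mem_of_dvd _ hJ hJQ'
  have h2 : (q : 𝓞 K) ∈ Q' := hQ'.mem_of_pow_mem _ h1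
  rw [under_eq_span_of_mem K hQ hq.out hqQ, under_eq_span_of_mem K hQ' hq.out h2]

/-- Consequently `stickIdeal p K Q` is principal: the hypothesis of
`Reduction.stickelbergerAnnihilates_of_prime` at `Q`. -/
theorem isPrincipal_stickIdeal_of_valuations {Q : Ideal (𝓞 K)} (hQ : Q.IsPrime) {q : ℕ}
    [hq : Fact q.Prime] (hqp : q ≠ p) (hqQ : (q : 𝓞 K) ∈ Q) {J : 𝓞 K} {N : ℕ}
    (hJ : J ∣ (q : 𝓞 K) ^ N)
    (hle : ∀ d, clRingAction p K d J ∈ Q ^ cnt p q d)
    (hlt : ∀ d, clRingAction p K d J ∉ Q ^ (cnt p q d + 1)) :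
    (stickIdeal p K Q).IsPrincipal := by
  rw [← span_eq_stickIdeal_of_valuations p K hQ hqp hqQ hJ hle hlt]
  exact ⟨⟨J, rfl⟩⟩

end Fermat.Agent.CFT.Stickelberger.Glue
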