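import Mathlib
import Fermat.Agent.CFT.Stickelberger.Cyclotomic
import Fermat.Agent.CFT.Stickelberger.Glue

/-!
# S14(i) Stickelberger, part 5: the exact valuations of the conjugates of the Jacobi sum

`K = ℚ(ζ_p)`, `p` odd, `Q` a prime of `𝓞 K` above `q ≠ p`, `F = 𝓞 K ⧸ Q`, `ψ : F → 𝓞 K` the
(inverse) `p`-th power residue character, `J₀ = J(ψ, ψ)`.

* `mem_pow_of_mul_mem_pow`: in a Dedekind domain, `v(xy) ≥ a + b`, `v(y) ≤ b` imply `v(x) ≥ a`;
* `residueChar_pow_ne_one`, `jacobiSum_mul_jacobiSum_inv_int`: `J₀ · conj J₀ = #F` in `𝓞 K`;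
* `cnt_eq_carryCount`, `cnt_add_cnt_neg`: the count of `Glue.cnt` is the carry count of `-d`, and
  `cnt d + cnt (-d) = ord_p(q)`;
* `exists_jacobi_valuations`: the element `J = σ_{-1} J₀` divides `q^f` and the exact power of `Q`
  dividing `σ_d J` is `Glue.cnt p q d` (upper bound: `le_carryCount_of_mem`, i.e. Stickelberger's
  congruence in the Witt vectors; lower bound: product formula).
-/

set_option autoImplicit false
set_option linter.unusedSectionVars false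
set_option linter.style.haveILetI false

namespace Fermat.Agent.CFT.Stickelberger

open NumberField Ideal

section Dedekind

/-- In a Dedekind domain: `v(xy) ≥ a + b` and `v(y) ≤ b` imply `v(x) ≥ a`. -/
theorem mem_pow_of_mul_mem_pow {R : Type*} [CommRing R] [IsDedekindDomain R] {Q : Ideal R}
    (hQ : Q.IsPrime) (hQ0 : Q ≠ ⊥) {x y : R} {a b : ℕ}
    (hxy : x * y ∈ Q ^ (a + b)) (hy : y ∉ Q ^ (b + 1)) : x ∈ Q ^ a := by
  have hprime : Prime Q := Ideal.prime_of_isPrime hQ0 hQ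
  rw [← Ideal.dvd_span_singleton] at hxy hy ⊢
  rw [pow_dvd_iff_le_emultiplicity] at hxy hy ⊢
  rw [← Ideal.span_singleton_mul_span_singleton, emultiplicity_mul hprime] at hxy
  rcases eq_or_ne (emultiplicity Q (Ideal.span {x})) ⊤ with h | h
  · rw [h]; exact le_top
  · obtain ⟨m, hm⟩ := ENat.ne_top_iff_exists.mp h
    have hy' : emultiplicity Q (Ideal.span {y}) ≠ ⊤ := ne_top_of_lt (not_le.mp hy)
    obtain ⟨n, hn⟩ := ENat.ne_top_iff_exists.mp hy'
    rw [← hm, ← hn] at hxy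
    rw [← hn] at hy
    rw [← hm]
    norm_cast at hxy hy ⊢
    omega

end Dedekind

section Product

variable (p : ℕ) [hp : Fact p.Prime] (K : Type*) [Field K] [NumberField K]
  [hK : IsCyclotomicExtension {p} ℚ K]
variable (q : ℕ) [hq : Fact q.Prime]
variable {F : Type*} [Field F] [Fintype F] [CharP F q] (π : 𝓞 K →+* F)
variable {f : ℕ} (hQ : Fintype.card F = q ^ f) (hpQ : p ∣ q ^ f - 1)
variable (ψ : MulChar F (𝓞 K)) (hψp : ψ ^ p = 1)
  (hψπ : ∀ x : Fˣ, π (ψ x) = ((x⁻¹ : Fˣ) : F) ^ ((q ^ f - 1) / p))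

include hQ hpQ hψπ in
/-- The residue character has exact order `p`. -/
theorem residueChar_pow_ne_one {j : ℕ} (hj : 0 < j) (hj' : j < p) : ψ ^ j ≠ 1 := by
  intro h
  set M := (q ^ f - 1) / p with hM
  have hpM : p * M = q ^ f - 1 := Nat.mul_div_cancel' hpQ
  have hcardpos : 1 < Fintype.card F := Fintype.one_lt_card
  have hM0 : 0 < M := by
    rcases Nat.eq_zero_or_pos M with h0 | h0
    · rw [h0, mul_zero] at hpM
      omega
    · exact h0
  have hall : ∀ x : Fˣ, x ^ (M * j) = 1 := by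
    intro x
    have h1 : (ψ ^ j) ((x⁻¹ : Fˣ) : F) = 1 := by rw [h, MulChar.one_apply_coe]
    rw [MulChar.pow_apply_coe] at h1
    have h2 := congrArg π h1
    rw [map_pow, hψπ, inv_inv, map_one, ← pow_mul] at h2
    apply Units.ext
    rw [Units.val_pow_eq_pow_val, Units.val_one]
    exact h2
  have h3 := (FiniteField.forall_pow_eq_one_iff F (M * j)).mp hall
  rw [hQ, ← hpM, mul_comm p M] at h3
  have h4 : p ∣ j := (Nat.mul_dvd_mul_iff_left hM0).mp h3
  exact absurd (Nat.le_of_dvd hj h4) (not_le.mpr hj')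

include hQ hpQ hψπ in
/-- `J(ψ,ψ) · J(ψ⁻¹,ψ⁻¹) = #F` in `𝓞 K`. -/
theorem jacobiSum_mul_jacobiSum_inv_int (hp2 : p ≠ 2) :
    jacobiSum ψ ψ * jacobiSum ψ⁻¹ ψ⁻¹ = (Fintype.card F : 𝓞 K) := by
  have hp3 : 3 ≤ p := by
    have := hp.out.two_le
    omega
  have hinj : Function.Injective (algebraMap (𝓞 K) K) := FaithfulSMul.algebraMap_injective (𝓞 K) K
  apply hinj
  rw [map_mul, ← jacobiSum_ringHomComp, ← jacobiSum_ringHomComp, map_natCast,
    ← MulChar.ringHomComp_inv]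
  have hchar : ringChar K ≠ ringChar F := by
    rw [ringChar.eq_zero, ringChar.eq F q]
    exact hq.out.ne_zero.symm
  have h1 : ψ ≠ 1 := by
    have := residueChar_pow_ne_one p K q π hQ hpQ ψ hψπ (j := 1) one_pos (by omega)
    rwa [pow_one] at this
  have h2 : ψ * ψ ≠ 1 := by
    have := residueChar_pow_ne_one p K q π hQ hpQ ψ hψπ (j := 2) two_pos (by omega)
    rwa [pow_two] at this
  refine jacobiSum_mul_jacobiSum_inv hchar ((MulChar.ringHomComp_ne_one_iff hinj).mpr h1)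
    ((MulChar.ringHomComp_ne_one_iff hinj).mpr h1) ?_
  rw [← MulChar.ringHomComp_mul]
  exact (MulChar.ringHomComp_ne_one_iff hinj).mpr h2

end Product

section Count

open _root_.Stickelberger

variable (p : ℕ) [hp : Fact p.Prime] (q : ℕ) [hq : Fact q.Prime]

theorem val_mul_pow_mod (a : ZMod p) (i : ℕ) :
    (a.val * q ^ i) % p = (a * (q : ZMod p) ^ i).val := by
  haveI : NeZero p := ⟨hp.out.ne_zero⟩
  rw [← ZMod.val_natCast]
  push_cast
  rw [ZMod.natCast_zmod_val]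

theorem unit_mul_pow_ne_zero (hqp : q ≠ p) (d : (ZMod p)ˣ) (i : ℕ) :
    (d : ZMod p) * (q : ZMod p) ^ i ≠ 0 := by
  have hcop : q.Coprime p := (Nat.coprime_primes hq.out hp.out).mpr hqp
  have h1 : IsUnit ((q : ZMod p)) := (ZMod.unitOfCoprime q hcop).isUnit
  exact (d.isUnit.mul (h1.pow i)).ne_zero

/-- helper15's count `cnt p q d` is the carry count of `-d`. -/
theorem cnt_eq_carryCount (hp2 : p ≠ 2) (hqp : q ≠ p) (d : (ZMod p)ˣ) :
    Glue.cnt p q d
      = carryCount q p (orderOf (q : ZMod p)) ((-d : (ZMod p)ˣ) : ZMod p).val := by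
  haveI : NeZero p := ⟨hp.out.ne_zero⟩
  rw [Glue.cnt, carryCount]
  congr 1
  apply Finset.filter_congr
  intro i _
  rw [val_mul_pow_mod, Units.val_neg, neg_mul, ZMod.neg_val, mem_exponentSet]
  have hne := unit_mul_pow_ne_zero p q hqp d i
  rw [if_neg hne]
  have hpos : 0 < ((d : ZMod p) * (q : ZMod p) ^ i).val := (ZMod.val_pos).mpr hne
  have hlt : ((d : ZMod p) * (q : ZMod p) ^ i).val < p := ZMod.val_lt _
  have hodd : p % 2 = 1 := by
    rcases hp.out.eq_two_or_odd with h | h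
    · exact absurd h hp2
    · exact h
  constructor <;> intro h <;> omega

/-- `cnt p q d + cnt p q (-d) = ord_p(q)`. -/
theorem cnt_add_cnt_neg (hp2 : p ≠ 2) (hqp : q ≠ p) (d : (ZMod p)ˣ) :
    Glue.cnt p q d + Glue.cnt p q (-d) = orderOf (q : ZMod p) := by
  haveI : NeZero p := ⟨hp.out.ne_zero⟩
  rw [cnt_eq_carryCount p q hp2 hqp d, cnt_eq_carryCount p q hp2 hqp (-d), neg_neg, add_comm]
  have hodd : ¬ 2 ∣ p := by
    intro h
    exact hp2 ((Nat.prime_dvd_prime_iff_eq Nat.prime_two hp.out).mp h).symm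
  have h1 : ((-d : (ZMod p)ˣ) : ZMod p).val = p - (d : ZMod p).val := by
    rw [Units.val_neg, ZMod.neg_val, if_neg d.ne_zero]
  rw [h1]
  refine carryCount_add_carryCount_compl hp.out.pos hodd (ZMod.val_lt _).le ?_
  intro i _
  rw [val_mul_pow_mod]
  exact (ZMod.val_pos.mpr (unit_mul_pow_ne_zero p q hqp d i)).ne'

end Count

section Final

open JacobiSumStickelberger _root_.Stickelberger

attribute [local instance] Ideal.Quotient.field

variable (p : ℕ) [hp : Fact p.Prime] (K : Type*) [Field K] [NumberField K]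
  [hK : IsCyclotomicExtension {p} ℚ K]

/-- **Stickelberger's factorisation, valuation form.**  For a prime `Q` of `ℤ[ζ_p]` above `q ≠ p`
there is an element `J` (the conjugate of a Jacobi sum) dividing a power of `q` such that the exact
power of `Q` dividing `σ_d J` is `cnt p q d = #{i < ord_p(q) : 0 < 2 (d qⁱ mod p) < p}`. -/
theorem exists_jacobi_valuations (hp2 : p ≠ 2) {Q : Ideal (𝓞 K)} (hQ : Q.IsPrime) {q : ℕ}
    [hq : Fact q.Prime] (hqp : q ≠ p) (hqQ : (q : 𝓞 K) ∈ Q) :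
    ∃ (J : 𝓞 K) (N : ℕ), J ∣ (q : 𝓞 K) ^ N ∧
      (∀ d, clRingAction p K d J ∈ Q ^ Glue.cnt p q d) ∧
      (∀ d, clRingAction p K d J ∉ Q ^ (Glue.cnt p q d + 1)) := by
  haveI : NeZero p := ⟨hp.out.ne_zero⟩
  have hQ0 : Q ≠ ⊥ := by
    rintro rfl
    rw [Ideal.mem_bot] at hqQ
    exact (Nat.cast_ne_zero.mpr hq.out.ne_zero) hqQ
  haveI hQm : Q.IsMaximal := hQ.isMaximal hQ0
  haveI hQl : Q.LiesOver (Ideal.span {(q : ℤ)}) :=
    ⟨(Glue.under_eq_span_of_mem K hQ hq.out hqQ).symm⟩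
  haveI hchar : CharP (𝓞 K ⧸ Q) q := charPResidue K q Q
  set π : 𝓞 K →+* (𝓞 K ⧸ Q) := Ideal.Quotient.mk Q with hπ
  have hζF : IsPrimitiveRoot (π (zetaInt p K)) p := mk_zetaInt_isPrimitiveRoot p K q Q hqp
  have hcard : Fintype.card (𝓞 K ⧸ Q) = q ^ resDeg p q := card_residue p K q Q hqp
  have hpQ : p ∣ q ^ resDeg p q - 1 := dvd_pow_resDeg_sub_one p q
  have hpQ' : p ∣ Fintype.card (𝓞 K ⧸ Q) - 1 := by rw [hcard]; exact hpQ
  obtain ⟨ψ, hψp, hψπ'⟩ := exists_residueChar p K π hζF hpQ'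
  have hψπ : ∀ x : (𝓞 K ⧸ Q)ˣ,
      π (ψ x) = ((x⁻¹ : (𝓞 K ⧸ Q)ˣ) : 𝓞 K ⧸ Q) ^ ((q ^ resDeg p q - 1) / p) := by
    intro x
    rw [hψπ' x, hcard]
  have hker : ∀ x, x ∈ Q → π x = 0 := fun x hx => Ideal.Quotient.eq_zero_iff_mem.mpr hx
  set J₀ : 𝓞 K := jacobiSum ψ ψ with hJ₀
  have hζp : zetaInt p K ^ p = 1 := (zetaInt_isPrimitiveRoot p K).pow_eq_one
  have hs : ∀ d : (ZMod p)ˣ,
      ((clRingAction p K d : 𝓞 K ≃+* 𝓞 K) : 𝓞 K →+* 𝓞 K) (zetaInt p K)
        = zetaInt p K ^ (d : ZMod p).val := fun d =>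
    Reduction.clRingAction_apply_of_pow_eq_one p K d hζp
  -- upper bounds
  have hub : ∀ (d : (ZMod p)ˣ) (k : ℕ), clRingAction p K d J₀ ∈ Q ^ k →
      k ≤ carryCount q p (resDeg p q) (d : ZMod p).val := by
    intro d k hk
    have hr : 0 < (d : ZMod p).val := ZMod.val_pos.mpr d.ne_zero
    have hr' : (d : ZMod p).val < p := ZMod.val_lt _
    exact le_carryCount_of_mem p K q π hζF hqp hcard hpQ ψ hψp hψπ hp2 Q hker
      ((clRingAction p K d : 𝓞 K ≃+* 𝓞 K) : 𝓞 K →+* 𝓞 K) hr hr' (hs d) hk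
  -- the conjugate
  have hconj : clRingAction p K (-1) J₀ = jacobiSum ψ⁻¹ ψ⁻¹ := by
    have h1 : ψ.ringHomComp ((clRingAction p K (-1) : 𝓞 K ≃+* 𝓞 K) : 𝓞 K →+* 𝓞 K)
        = ψ ^ ((-1 : (ZMod p)ˣ) : ZMod p).val :=
      ringHomComp_of_map_zeta p K ψ hψp _ (hs (-1))
    have h2 : ψ ^ ((-1 : (ZMod p)ˣ) : ZMod p).val = ψ⁻¹ := by
      apply eq_inv_of_mul_eq_one_left
      rw [← pow_succ, Units.val_neg, Units.val_one, ZMod.neg_val, if_neg one_ne_zero,
        ZMod.val_one'' (by intro h; exact hp.out.ne_one h)]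
      rw [Nat.sub_add_cancel hp.out.one_le]
      exact hψp
    have h3 := jacobiSum_ringHomComp ψ ψ
      ((clRingAction p K (-1) : 𝓞 K ≃+* 𝓞 K) : 𝓞 K →+* 𝓞 K)
    rw [h1, h2] at h3
    exact h3.symm
  have hprod0 : J₀ * clRingAction p K (-1) J₀ = (q : 𝓞 K) ^ resDeg p q := by
    rw [hconj, jacobiSum_mul_jacobiSum_inv_int p K q π hcard hpQ ψ hψπ hp2, hcard]
    push_cast
    rfl
  have hact : ∀ (d : (ZMod p)ˣ) (x : 𝓞 K),
      clRingAction p K d (clRingAction p K (-1) x) = clRingAction p K (-d) x := by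
    intro d x
    have : clRingAction p K (-d) = clRingAction p K d * clRingAction p K (-1) := by
      rw [← map_mul, mul_neg_one]
    rw [this]
    rfl
  have hprod : ∀ d : (ZMod p)ˣ,
      clRingAction p K (-d) J₀ * clRingAction p K d J₀ = (q : 𝓞 K) ^ resDeg p q := by
    intro d
    have := congrArg (clRingAction p K d) hprod0
    rw [map_mul, map_pow, map_natCast, hact] at this
    rw [mul_comm]
    exact this
  have hf : resDeg p q = orderOf ((q : ℕ) : ZMod p) := rfl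
  refine ⟨clRingAction p K (-1) J₀, resDeg p q, ⟨J₀, ?_⟩, ?_, ?_⟩
  · rw [← hprod0, mul_comm]
  · intro d
    rw [hact]
    have hsum := cnt_add_cnt_neg p q hp2 hqp d
    refine mem_pow_of_mul_mem_pow hQ hQ0 (y := clRingAction p K d J₀)
      (b := Glue.cnt p q (-d)) ?_ ?_
    · rw [hprod d, hsum, ← hf]
      exact Ideal.pow_mem_pow hqQ _
    · intro hmem
      have h1 := hub d _ hmem
      rw [cnt_eq_carryCount p q hp2 hqp (-d), neg_neg, ← hf] at h1
      omega
  · intro d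
    rw [hact]
    intro hmem
    have h1 := hub (-d) _ hmem
    rw [cnt_eq_carryCount p q hp2 hqp d, ← hf] at h1
    omega

end Final

end Fermat.Agent.CFT.Stickelberger
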