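import Mathlib
import Fermat.Agent.CFT.Stickelberger.Factorization

/-!
# S14(i): Stickelberger's theorem for `ℚ(ζ_p)` in the prelude's vocabulary

For an odd prime `p` and `K = ℚ(ζ_p)`, the Stickelberger element
`∑_{0 < c < p/2} σ_c⁻¹` annihilates `Cl(K)/p`
(`stickelbergerAnnihilates`), hence `Cl(K)/p` has no nonzero `ω^{p-2}`-eigenvector
(`eq_zero_of_isOmegaEigenvector`).
-/

set_option autoImplicit false

namespace Fermat.Agent.CFT.Stickelberger

open NumberField JacobiSumStickelberger _root_.Stickelberger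

variable (p : ℕ) [hp : Fact p.Prime] (K : Type*) [Field K] [NumberField K]
  [hK : IsCyclotomicExtension {p} ℚ K]

omit hp hK in
/-- A nonzero prime of `𝓞 K` contains a rational prime. -/
theorem exists_prime_natCast_mem {Q : Ideal (𝓞 K)} (hQ : Q.IsPrime) (hQ0 : Q ≠ ⊥) :
    ∃ q : ℕ, q.Prime ∧ (q : 𝓞 K) ∈ Q := by
  have : Finite (𝓞 K ⧸ Q) := Ring.HasFiniteQuotients.finiteQuotient hQ0
  have : IsDomain (𝓞 K ⧸ Q) := Ideal.Quotient.isDomain Q
  obtain ⟨q, hq⟩ := CharP.exists (𝓞 K ⧸ Q)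
  refine ⟨q, CharP.char_is_prime (𝓞 K ⧸ Q) q, ?_⟩
  rw [← Ideal.Quotient.eq_zero_iff_mem, map_natCast]
  exact CharP.cast_eq_zero _ q

/-- For a prime `Q ∤ p` of `ℤ[ζ_p]` (`p` odd) the ideal `∏_{0 < c < p/2} σ_c⁻¹(Q)` is principal,
generated by the conjugate of the Jacobi sum `J(ψ, ψ)` of the `p`-th power residue character
modulo `Q`. -/
theorem isPrincipal_stickIdeal_of_prime (hp2 : p ≠ 2) {Q : Ideal (𝓞 K)} (hQ : Q.IsPrime)
    (hQ0 : Q ≠ ⊥) (hpQ : (p : 𝓞 K) ∉ Q) : (Reduction.stickIdeal p K Q).IsPrincipal := by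
  obtain ⟨q, hq, hqQ⟩ := exists_prime_natCast_mem K hQ hQ0
  have : Fact q.Prime := ⟨hq⟩
  have hqp : q ≠ p := by
    rintro rfl
    exact hpQ hqQ
  obtain ⟨J, N, hJ, hle, hlt⟩ := exists_jacobi_valuations p K hp2 hQ hqp hqQ
  exact Glue.isPrincipal_stickIdeal_of_valuations p K hQ hqp hqQ hJ hle hlt

/-- **Stickelberger's theorem** for `ℚ(ζ_p)`, `p` odd, in the prelude's vocabulary: the element
`∑_{c ∈ exponentSet p} σ_c⁻¹` annihilates `Cl(𝓞 K)/p`. -/
theorem stickelbergerAnnihilates (hp2 : p ≠ 2) :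
    StickelbergerAnnihilates (clGalAction p K) :=
  Reduction.stickelbergerAnnihilates_of_prime p K
    (fun _ hQ hQ0 hpQ => isPrincipal_stickIdeal_of_prime p K hp2 hQ hQ0 hpQ)

/-- Every ideal `∏_{0 < c < p/2} σ_c⁻¹(I)`, `I ≠ 0`, is principal. -/
theorem isPrincipal_stickIdeal (hp2 : p ≠ 2) (I : Ideal (𝓞 K)) (hI : I ≠ ⊥) :
    (Reduction.stickIdeal p K I).IsPrincipal := by
  refine Reduction.isPrincipal_stickIdeal p K (fun Q hQ hQ0 => ?_) I hI
  by_cases hpQ : (p : 𝓞 K) ∈ Q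
  · exact Reduction.isPrincipal_stickIdeal_of_isPrincipal p K
      (Reduction.isPrincipal_of_mem p K hQ hpQ)
  · exact isPrincipal_stickIdeal_of_prime p K hp2 hQ hQ0 hpQ

/-- **Corollary used by S14**: `Cl(𝓞 K)/p` has no nonzero `ω^{p-2}`-eigenvector. -/
theorem eq_zero_of_isOmegaEigenvector (hp2 : p ≠ 2) {a : ClGalModule p (𝓞 K)}
    (ha : IsOmegaEigenvector (clGalAction p K) (p - 2) a) : a = 0 :=
  Eigen.eq_zero_of_isOmegaEigenvector hp2 (clGalAction p K) (stickelbergerAnnihilates p K hp2) ha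

end Fermat.Agent.CFT.Stickelberger
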